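import Mathlib
import Fermat.Agent.S30.Model.Main
import Fermat.Agent.S30.AuxA.GaussBC

/-!
# S36 / Haupt4 / Gauss — hypothesis (i) of the Model Theorem for the Hauptmodul `u4`

`O` a DVR with uniformiser `π`, `E = Frac O` of characteristic zero, `L` a field over `E`,
`j : L` transcendental with `L / E(j)` finite and Gauss-unramified (`Model.GaussUnram π j`).
If `u : L` satisfies `j * u ^ 4 * (u + 16) = (u ^ 2 + 256 * u + 4096) ^ 3` (the level-4
relation of `Haupt4.jq_mul_u4`), then `u` is transcendental over `E`, `L / E(u)` is finite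
and Gauss-unramified (`Model.GaussUnram π u`).

This is the change of parameter `AuxA.GaussBC.gaussUnram_of_rel` with
`A = (X ^ 2 + 256 X + 4096) ^ 3` and `D = X ^ 4 (X + 16)`, both monic, `deg D = 5 < 6 = deg A`.
No hypothesis on the residue characteristic is needed.
-/

set_option autoImplicit false

namespace Fermat.Agent.S36.Haupt4

open Polynomial

variable {O E L : Type*} [CommRing O] [IsDomain O] [IsDiscreteValuationRing O]
  [Field E] [CharZero E] [Algebra O E] [IsFractionRing O E]
  [Field L] [Algebra E L] [Algebra O L] [IsScalarTower O E L]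

/-- **(G) for the level-4 Hauptmodul** `u = u4`,
`j * u ^ 4 * (u + 16) = (u ^ 2 + 256 * u + 4096) ^ 3`. -/
theorem gaussUnram_u4 (π : O) (hπ : Irreducible π) (j : L)
    (hj : Transcendental E j) [FiniteDimensional (IntermediateField.adjoin E {j}) L]
    (hi : Fermat.Agent.S30.Model.GaussUnram (E := E) π j) (u : L)
    (hrel : j * u ^ 4 * (u + 16) = (u ^ 2 + 256 * u + 4096) ^ 3) :
    Transcendental E u ∧ FiniteDimensional (IntermediateField.adjoin E {u}) L ∧
      Fermat.Agent.S30.Model.GaussUnram (E := E) π u := by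
  have hchar : CharZero L := charZero_of_injective_algebraMap (algebraMap E L).injective
  have hu0 : u ≠ 0 := by
    rintro rfl
    norm_num at hrel
  have hu16 : u + 16 ≠ 0 := by
    intro h
    have hu : u = -16 := eq_neg_of_add_eq_zero_left h
    rw [hu] at hrel
    norm_num at hrel
  have h256 : algebraMap O L (256 : O) = 256 := map_ofNat (algebraMap O L) 256
  have h4096 : algebraMap O L (4096 : O) = 4096 := map_ofNat (algebraMap O L) 4096
  have h16 : algebraMap O L (16 : O) = 16 := map_ofNat (algebraMap O L) 16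
  have hA : ((X ^ 2 + C (256 : O) * X + C (4096 : O)) ^ 3 : O[X]).Monic := by
    apply Monic.pow
    have h1 : (X ^ 2 + C (256 : O) * X + C (4096 : O) : O[X])
        = X ^ 2 + (C (256 : O) * X + C (4096 : O)) := by ring
    rw [h1]
    apply Polynomial.monic_X_pow_add
    refine lt_of_le_of_lt (Polynomial.degree_linear_le) ?_
    norm_num
  have hAdeg : ((X ^ 2 + C (256 : O) * X + C (4096 : O)) ^ 3 : O[X]).natDegree = 6 := by
    have h1 : (X ^ 2 + C (256 : O) * X + C (4096 : O) : O[X])
        = X ^ 2 + (C (256 : O) * X + C (4096 : O)) := by ring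
    have hm : (X ^ 2 + (C (256 : O) * X + C (4096 : O)) : O[X]).Monic := by
      apply Polynomial.monic_X_pow_add
      refine lt_of_le_of_lt (Polynomial.degree_linear_le) ?_
      norm_num
    have hd : (X ^ 2 + (C (256 : O) * X + C (4096 : O)) : O[X]).natDegree = 2 := by
      rw [Polynomial.natDegree_add_eq_left_of_degree_lt]
      · exact Polynomial.natDegree_X_pow 2
      · rw [Polynomial.degree_X_pow]
        refine lt_of_le_of_lt (Polynomial.degree_linear_le) ?_
        norm_num
    rw [h1, hm.natDegree_pow, hd]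
  have hDm : (X ^ 4 * (X + C (16 : O)) : O[X]).Monic :=
    (Polynomial.monic_X_pow 4).mul (Polynomial.monic_X_add_C _)
  have hDdeg : (X ^ 4 * (X + C (16 : O)) : O[X]).natDegree = 5 := by
    rw [Polynomial.Monic.natDegree_mul (Polynomial.monic_X_pow 4) (Polynomial.monic_X_add_C _),
      Polynomial.natDegree_X_pow, Polynomial.natDegree_X_add_C]
  exact Fermat.Agent.S30.AuxA.GaussBC.gaussUnram_of_rel π hπ j u hj hi
    ((X ^ 2 + C (256 : O) * X + C (4096 : O)) ^ 3) (X ^ 4 * (X + C (16 : O)))
    (by
      simp only [map_mul, map_pow, map_add, aeval_X, aeval_C, h16]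
      exact mul_ne_zero (pow_ne_zero 4 hu0) hu16)
    (by
      simp only [map_mul, map_pow, map_add, aeval_X, aeval_C, h16, h256, h4096]
      rw [← hrel]; ring)
    (Fermat.Agent.S30.AuxA.GaussBC.hred_of_monic hA hDm (by rw [hAdeg, hDdeg]; norm_num))

end Fermat.Agent.S36.Haupt4
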