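import Mathlib
import Fermat.Agent.S30.AuxLevel.Haupt
import Fermat.Agent.S30.AuxLevel.Mem

/-!
# The Hauptmodul `u₄` of `Γ₀(4)` as an integral Laurent series

`x = t₂(q)`, `y = t₂(q²)` (the Hauptmodul `t₂ = Δ(τ)/Δ(2τ)` of `Γ₀(2)` and its `V₂`-twist) satisfy
the modular equation `y² = x²y + 48xy + 4096x`; this is pure algebra on the two landed identities
`j(q²) x = (x + 16)³`, `j(q²) y² = (y + 256)³`.  We put

  `u₄ := (y - 16 x) / (x + 16)`   (`= (η(τ)/η(4τ))⁸`, a fact which is never used),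

an integral Laurent series `q⁻¹ + …`, defined over every commutative ring `K`, and prove

* `t2_mul_u4`      : `t₂ (u₄ + 16) = u₄²`
* `t2_add_mul_u4`  : `(t₂ + 64)(u₄ + 16) = (u₄ + 32)²`
* `qExpand_t2_eq`  : `t₂(q²) = u₄ (u₄ + 16)`
* `jq_mul_u4`      : `j · u₄⁴ (u₄ + 16) = (u₄² + 256 u₄ + 4096)³`
* `u4_mem_laurentBaseChange` : `u₄` lies in the level-`M` function field whenever `4 ∣ M`.
-/

set_option autoImplicit false

noncomputable section

namespace Fermat.Agent.S36.Haupt4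

open ModularCurve PowerSeries Fermat.Agent.S30.AuxLevel

/-! ### The identities in `ℤ⟦X⟧` -/

/-- The numerator of `t₂(q²) = q⁻² · BZ`. -/
def BZ : PowerSeries ℤ := ex 2 t2Num

theorem constantCoeff_BZ : PowerSeries.constantCoeff BZ = 1 := by
  rw [BZ, PowerSeries.constantCoeff_expand, constantCoeff_t2Num]

theorem ex2_jNum_mul_BZ_sq : ex 2 jNum * BZ ^ 2 = (BZ + 256 * X ^ 2) ^ 3 := by
  have h := congrArg (ex 2) jNum_mul_t2Num_sq
  rw [map_mul, map_pow, map_pow, map_add, map_mul, PowerSeries.expand_X, map_ofNat] at h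
  exact h

/-- **The modular equation of level `2` for `t₂`**: `y² = x²y + 48xy + 4096x`. -/
theorem rel4 : BZ ^ 2 = t2Num ^ 2 * BZ + 48 * X * t2Num * BZ + 4096 * X ^ 3 * t2Num := by
  have h1 := ex2_jNum_mul_t2Num
  have h2 := ex2_jNum_mul_BZ_sq
  have key : (BZ ^ 2 - (t2Num ^ 2 * BZ + 48 * X * t2Num * BZ + 4096 * X ^ 3 * t2Num))
      * (4096 * X ^ 3 - t2Num * BZ) = 0 := by
    linear_combination (-BZ ^ 2) * h1 + t2Num * h2
  rcases mul_eq_zero.mp key with h | h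
  · exact sub_eq_zero.mp h
  · exfalso
    have h3 := congrArg (PowerSeries.constantCoeff (R := ℤ)) h
    simp [constantCoeff_t2Num, constantCoeff_BZ] at h3

/-- The numerator of `u₄ = q⁻¹ · u4Num`. -/
def u4Num : PowerSeries ℤ :=
  (BZ - 16 * X * t2Num) * PowerSeries.invOfUnit (t2Num + 16 * X) 1

theorem constantCoeff_t2Num_add : PowerSeries.constantCoeff (t2Num + 16 * X) = ((1 : ℤˣ) : ℤ) := by
  simp [constantCoeff_t2Num]

theorem u4Num_mul : u4Num * (t2Num + 16 * X) = BZ - 16 * X * t2Num := by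
  rw [u4Num, mul_assoc, mul_comm (PowerSeries.invOfUnit _ _),
    PowerSeries.mul_invOfUnit _ _ constantCoeff_t2Num_add, mul_one]

theorem constantCoeff_u4Num : PowerSeries.constantCoeff u4Num = 1 := by
  simp [u4Num, constantCoeff_BZ, PowerSeries.constantCoeff_invOfUnit]

theorem t2Num_add_ne_zero : t2Num + 16 * X ≠ 0 := by
  intro h
  have h3 := congrArg (PowerSeries.constantCoeff (R := ℤ)) h
  simp [constantCoeff_t2Num] at h3

/-- `t₂ (u₄ + 16) = u₄²`. -/
theorem t2Num_mul_u4Num : t2Num * (u4Num + 16 * X) = u4Num ^ 2 := by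
  have hU := u4Num_mul
  have hr := rel4
  have key : (t2Num + 16 * X) ^ 2 * (t2Num * (u4Num + 16 * X) - u4Num ^ 2) = 0 := by
    linear_combination ((t2Num + 16 * X) * t2Num - u4Num * (t2Num + 16 * X)
      - (BZ - 16 * X * t2Num)) * hU - hr
  rcases mul_eq_zero.mp key with h | h
  · exact absurd ((pow_eq_zero_iff two_ne_zero).mp h) t2Num_add_ne_zero
  · exact sub_eq_zero.mp h

/-- `t₂(q²) = u₄ (u₄ + 16)`. -/
theorem BZ_eq : BZ = u4Num * (u4Num + 16 * X) := by
  linear_combination -u4Num_mul + t2Num_mul_u4Num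

/-- `(t₂ + 64)(u₄ + 16) = (u₄ + 32)²`. -/
theorem t2Num_add_mul : (t2Num + 64 * X) * (u4Num + 16 * X) = (u4Num + 32 * X) ^ 2 := by
  linear_combination t2Num_mul_u4Num

/-- `j · u₄⁴ (u₄ + 16) = (u₄² + 256 u₄ + 4096)³`. -/
theorem jNum_mul_u4Num :
    jNum * u4Num ^ 4 * (u4Num + 16 * X)
      = (u4Num ^ 2 + 256 * X * u4Num + 4096 * X ^ 2) ^ 3 := by
  have h5 : u4Num ^ 2 = t2Num * (u4Num + 16 * X) := t2Num_mul_u4Num.symm
  have hj := jNum_mul_t2Num_sq
  calc jNum * u4Num ^ 4 * (u4Num + 16 * X)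
      = jNum * (u4Num ^ 2) ^ 2 * (u4Num + 16 * X) := by ring
    _ = jNum * (t2Num * (u4Num + 16 * X)) ^ 2 * (u4Num + 16 * X) := by rw [h5]
    _ = (jNum * t2Num ^ 2) * (u4Num + 16 * X) ^ 3 := by ring
    _ = (t2Num + 256 * X) ^ 3 * (u4Num + 16 * X) ^ 3 := by rw [hj]
    _ = (t2Num * (u4Num + 16 * X) + 256 * X * u4Num + 4096 * X ^ 2) ^ 3 := by ring
    _ = (u4Num ^ 2 + 256 * X * u4Num + 4096 * X ^ 2) ^ 3 := by rw [← h5]

/-! ### Laurent series over an arbitrary commutative ring -/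

section Laurent

variable (K : Type*) [CommRing K]

/-- The Hauptmodul `u₄` of `Γ₀(4)`, as a Laurent series `q⁻¹ + …` over `K`. -/
def u4 : LaurentSeries K := xinv K * em K u4Num

theorem qExpand_t2 : qExpand K 2 (t2 K) = xinv K ^ 2 * em K BZ := by
  rw [t2, map_mul, qExpand_xinv, qExpand_em, BZ]

theorem em_ofNat (n : ℕ) [n.AtLeastTwo] : em K (OfNat.ofNat n) = OfNat.ofNat n := map_ofNat _ n

/-- `t₂ (u₄ + 16) = u₄²`. -/
theorem t2_mul_u4 : t2 K * (u4 K + 16) = u4 K ^ 2 := by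
  have h := congrArg (em K) t2Num_mul_u4Num
  rw [map_mul, map_add, map_mul, map_pow, em_ofNat] at h
  rw [t2, u4, xinv_mul_add]
  linear_combination xinv K ^ 2 * h

/-- `(t₂ + 64)(u₄ + 16) = (u₄ + 32)²`. -/
theorem t2_add_mul_u4 : (t2 K + 64) * (u4 K + 16) = (u4 K + 32) ^ 2 := by
  linear_combination t2_mul_u4 K

/-- `u₄ (t₂ + 16) = t₂(q²) - 16 t₂`: the definition of `u₄`. -/
theorem u4_mul_t2 : u4 K * (t2 K + 16) = qExpand K 2 (t2 K) - 16 * t2 K := by
  have h := congrArg (em K) u4Num_mul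
  rw [map_mul, map_add, map_mul, map_sub, map_mul, map_mul, em_ofNat] at h
  have hx := xinv_mul_em_X K
  rw [qExpand_t2, t2, u4]
  linear_combination xinv K ^ 2 * h - (16 * xinv K * em K u4Num + 16 * xinv K * em K t2Num) * hx

/-- `t₂(q²) = u₄ (u₄ + 16)`. -/
theorem qExpand_t2_eq : qExpand K 2 (t2 K) = u4 K * (u4 K + 16) := by
  linear_combination -u4_mul_t2 K + t2_mul_u4 K

/-- `j · u₄⁴ (u₄ + 16) = (u₄² + 256 u₄ + 4096)³`. -/
theorem jq_mul_u4 :
    jqModC K * u4 K ^ 4 * (u4 K + 16) = (u4 K ^ 2 + 256 * u4 K + 4096) ^ 3 := by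
  have h := congrArg (em K) jNum_mul_u4Num
  rw [map_mul, map_mul, map_pow, map_add, map_mul, map_pow, map_add, map_add, map_pow, map_mul,
    map_mul, map_mul, map_pow, em_ofNat, em_ofNat, em_ofNat] at h
  have hx := xinv_mul_em_X K
  rw [jqModC_eq, u4]
  have e1 : xinv K * em K u4Num + 16 = xinv K * (em K u4Num + 16 * em K X) := by
    linear_combination (-16 : LaurentSeries K) * hx
  have e2 : (xinv K * em K u4Num) ^ 2 + 256 * (xinv K * em K u4Num) + 4096
      = xinv K ^ 2 * (em K u4Num ^ 2 + 256 * em K X * em K u4Num + 4096 * em K X ^ 2) := by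
    linear_combination (-256 * xinv K * em K u4Num - 4096 * (xinv K * em K X + 1)) * hx
  rw [e1, e2]
  linear_combination xinv K ^ 6 * h

variable {K} in
theorem coeffMap_u4 {K' : Type*} [CommRing K'] (f : K →+* K') :
    coeffMap f (u4 K) = u4 K' := by
  rw [u4, map_mul, coeffMap_xinv, coeffMap_em, u4]

theorem coeff_u4_neg_one : (u4 K).coeff (-1) = 1 := by
  rw [u4, coeff_xinv_mul_em, neg_add_cancel, em_apply,
    show (0 : ℤ) = ((0 : ℕ) : ℤ) from rfl, HahnSeries.ofPowerSeries_apply_coeff,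
    PowerSeries.coeff_map, PowerSeries.coeff_zero_eq_constantCoeff_apply, constantCoeff_u4Num]
  simp

theorem coeff_u4_of_lt {k : ℤ} (hk : k < -1) : (u4 K).coeff k = 0 := by
  rw [u4, coeff_xinv_mul_em, em_apply]
  exact ofPowerSeries_coeff_of_neg _ (by omega)

end Laurent

/-! ### Membership in the modular function fields -/

theorem t2_add_ne_zero (K : Type*) [CommRing K] [Nontrivial K] (c : K) :
    t2 K + HahnSeries.C c ≠ 0 := by
  intro h
  have h1 := congrArg (fun z : LaurentSeries K => z.coeff (-1)) h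
  simp only [HahnSeries.coeff_add, coeff_t2_neg_one, HahnSeries.coeff_zero] at h1
  rw [HahnSeries.C_apply, HahnSeries.coeff_single_of_ne (by norm_num), add_zero] at h1
  exact one_ne_zero h1

/-- `u₄ ∈ ℚ(j(q^d) : d ∣ 4)`. -/
theorem u4_mem : u4 ℚ ∈ modularFunctionFieldFull 4 := by
  have h2 : t2 ℚ ∈ modularFunctionFieldFull 4 := t2_mem_full (by norm_num)
  have h3 : qExpand ℚ 2 (t2 ℚ) ∈ modularFunctionFieldFull 4 := by
    have h4 : qExpandₐ 2 (t2 ℚ) ∈ (modularFunctionFieldFull 2).map (qExpandₐ 2) :=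
      ⟨t2 ℚ, t2_mem, rfl⟩
    exact full_degeneracy_map_le (N := 2) 2 h4
  have hne : t2 ℚ + 16 ≠ 0 := by
    have := t2_add_ne_zero ℚ (16 : ℚ)
    rwa [map_ofNat] at this
  have h5 : u4 ℚ = (qExpand ℚ 2 (t2 ℚ) - 16 * t2 ℚ) / (t2 ℚ + 16) := by
    rw [eq_div_iff hne]
    exact u4_mul_t2 ℚ
  rw [h5]
  exact div_mem (sub_mem h3 (mul_mem (ofNat_mem _ 16) h2)) (add_mem h2 (ofNat_mem _ 16))

theorem u4_mem_full {M : ℕ} [NeZero M] (h : 4 ∣ M) : u4 ℚ ∈ modularFunctionFieldFull M :=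
  full_degeneracy_le h u4_mem

section Field

variable (L : Type*) [Field L] [Algebra ℚ L]

theorem coeffEmb_u4 : coeffEmb L (u4 ℚ) = u4 L := coeffMap_u4 _

/-- `u₄` lies in the level-`M` function field over `L` whenever `4 ∣ M`. -/
theorem u4_mem_laurentBaseChange {M : ℕ} [NeZero M] (h : 4 ∣ M) :
    u4 L ∈ laurentBaseChange L (modularFunctionFieldFull M) := by
  rw [← coeffEmb_u4]
  exact coeffEmb_mem_laurentBaseChange L (u4_mem_full h)

end Field

end Fermat.Agent.S36.Haupt4
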