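import Fermat.Agent.S30.Haupt.Horiz
import Fermat.Agent.S36.Haupt4.Defs

set_option autoImplicit false

/-!
# S36 / Haupt4 / Horiz — hypothesis (ii) of the MODEL THEOREM for the Hauptmodul `u₄`

`E ⊆ ℚ̄` ANY intermediate field, `M` a level with `4 ∣ M`,
`L_E = laurentBaseChange E (modularFunctionFieldFull M) ⊆ E((q))`.

* `u4F M h : FN M`, `u4E M E h : L_E` : the Hauptmodul `u₄` of `Γ₀(4)` as an element of the
  level-`M` function field over `ℚ̄`, resp. over `E`;
* `ord_u4F_sub_eq_one` : `F_M / ℚ̄(u₄)` is unramified outside `u₄ ∈ {0, -16, ∞}` (place form);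
* `transcendental_u4E`, `jE_mul_u4E`, `finiteDimensional_u4E`;
* `horizUnram_u4` : `Model.HorizUnram S u₄` as soon as `S ∋ 0, -16`.

Proof of the place form: `t₂ (u₄ + 16) = u₄²`, so for `a ∉ {0, -16, -32}` the function
`t₂ - a²/(a+16)` has the same order as `u₄ - a` at a place over `u₄ = a`, and
`F_M / ℚ̄(t₂)` is unramified at `a²/(a+16) ∉ {0, -64}` (`Haupt.BranchTwo`).  For `a = -32`:
`(t₂ + 64)(u₄ + 16) = (u₄ + 32)²` and the order of `t₂ + 64` divides `2`
(`(j - 1728) t₂² = (t₂ + 64)(t₂ - 512)²` and `Ramif.ord_1728_dvd`).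
-/

noncomputable section

namespace Fermat.Agent.S36.Haupt4

open AlgebraicCurve Polynomial ModularCurve
open Fermat.Agent.S24.Modular Fermat.Agent.S24.FF Fermat.Agent.S30 Fermat.Agent.S30.Haupt

set_option synthInstance.maxHeartbeats 400000
set_option maxHeartbeats 1000000

local notation "Qb" => AlgebraicClosure ℚ

/-! ### Polynomial identities (any commutative ring) -/

section Identities

variable {F : Type*} [CommRing F]

theorem key_u4 (U T a β : F) (hT : T * (U + 16) = U ^ 2) (hβ : β * (a + 16) = a ^ 2) :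
    (T - β) * (U + 16) * (a + 16) = (U - a) * (a * (a + 32) + (U - a) * (a + 16)) := by
  linear_combination (a + 16) * hT - (U + 16) * hβ

theorem key_1728 (J T : F) (hJ : J * T ^ 2 = (T + 256) ^ 3) :
    (J - 1728) * T ^ 2 = (T + 64) * (T - 512) ^ 2 := by
  linear_combination hJ

end Identities

variable (M : ℕ) [NeZero M]

theorem two_dvd_of_four_dvd {M : ℕ} (h : 4 ∣ M) : 2 ∣ M := dvd_trans (by norm_num) h

/-- `u₄` as an element of the function field of `X₀(M)` over `ℚ̄` (`4 ∣ M`). -/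
def u4F (h : 4 ∣ M) : FN M := ⟨u4 Qb, u4_mem_laurentBaseChange Qb h⟩

@[simp] theorem coe_u4F (h : 4 ∣ M) : ((u4F M h : FN M) : LaurentSeries Qb) = u4 Qb := rfl

/-- `t₂ (u₄ + 16) = u₄²` in `F_M`. -/
theorem h2F_mul_u4F (h : 4 ∣ M) :
    BranchTwo.h2F M (two_dvd_of_four_dvd h) * (u4F M h + 16) = u4F M h ^ 2 := by
  apply Subtype.ext
  have h1 := t2_mul_u4 Qb
  have h2 : ((BranchTwo.h2F M (two_dvd_of_four_dvd h) * (u4F M h + 16) : FN M) :
      LaurentSeries Qb) = AuxLevel.t2 Qb * (u4 Qb + 16) := by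
    rw [← Horiz.coe_h2F_eq M (two_dvd_of_four_dvd h)]; rfl
  have h3 : ((u4F M h ^ 2 : FN M) : LaurentSeries Qb) = u4 Qb ^ 2 := rfl
  rw [h2, h3]
  exact h1

/-- `(t₂ + 64)(u₄ + 16) = (u₄ + 32)²` in `F_M`. -/
theorem h2F_add_mul_u4F (h : 4 ∣ M) :
    (BranchTwo.h2F M (two_dvd_of_four_dvd h) + 64) * (u4F M h + 16) = (u4F M h + 32) ^ 2 := by
  linear_combination h2F_mul_u4F M h

/-- `u₄` is not a constant. -/
theorem u4F_not_const (h : 4 ∣ M) (a : Qb) : u4F M h ≠ algebraMap Qb (FN M) a := by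
  intro hs
  have h1 := congrArg (fun x : FN M => (x : LaurentSeries Qb).coeff (-1)) hs
  simp only [coe_u4F, coeff_u4_neg_one] at h1
  have h2 : ((algebraMap Qb (FN M) a : FN M) : LaurentSeries Qb)
      = algebraMap Qb (LaurentSeries Qb) a := rfl
  rw [h2, algebraMap_laurentSeries_eq_single, HahnSeries.coeff_single_of_ne (by norm_num)] at h1
  exact one_ne_zero h1

/-- **`F_M / ℚ̄(u₄)` is unramified outside `u₄ ∈ {0, -16, ∞}`** (place form, `4 ∣ M`). -/
theorem ord_u4F_sub_eq_one (h : 4 ∣ M) (a : Qb) (h0 : a ≠ 0) (h16 : a + 16 ≠ 0)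
    (v : Place Qb (FN M)) (hv : 0 < v.ord (u4F M h - algebraMap Qb (FN M) a)) :
    v.ord (u4F M h - algebraMap Qb (FN M) a) = 1 := by
  have h2M : 2 ∣ M := two_dvd_of_four_dvd h
  set U := u4F M h with hU
  set T := BranchTwo.h2F M h2M with hT
  set A := algebraMap Qb (FN M) a with hA
  have hrel : T * (U + 16) = U ^ 2 := h2F_mul_u4F M h
  have ht0 : U - A ≠ 0 := BranchTwo.ne_zero_of_ord_pos v hv
  have hAV (c : Qb) : algebraMap Qb (FN M) c ∈ v.toValuationSubring := v.algebraMap_mem' c
  have h16F : algebraMap Qb (FN M) 16 = 16 := map_ofNat _ 16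
  have h32F : algebraMap Qb (FN M) 32 = 32 := map_ofNat _ 32
  -- `v(u₄ + 16) = 0`
  obtain ⟨hU16, hU16ord⟩ : U + 16 ≠ 0 ∧ v.ord (U + 16) = 0 := by
    have := BranchTwo.ord_const_add v (a + 16) h16 (U - A) 1 hv (one_mem _)
    rwa [mul_one, map_add, h16F, ← hA, show A + 16 + (U - A) = U + 16 by ring] at this
  have hA16 : A + 16 ≠ 0 := by
    rw [hA, ← h16F, ← map_add]; exact (_root_.map_ne_zero _).mpr h16
  have hA16ord : v.ord (A + 16) = 0 := by
    rw [hA, ← h16F, ← map_add]; exact ord_algebraMap v _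
  by_cases h32 : a + 32 = 0
  · -- `a = -32`, over `t₂ = -64`
    have hA32 : A = -32 := by
      rw [hA, eq_neg_of_add_eq_zero_left h32, map_neg, h32F]
    have hUA : U - A = U + 32 := by rw [hA32]; ring
    rw [hUA] at hv ht0 ⊢
    have hrel2 : (T + 64) * (U + 16) = (U + 32) ^ 2 := h2F_add_mul_u4F M h
    have hT64 : T + 64 ≠ 0 := by
      intro hz
      rw [hz, zero_mul] at hrel2
      exact (pow_ne_zero 2 ht0) hrel2.symm
    have hord2 : v.ord (T + 64) = 2 * v.ord (U + 32) := by
      have := congrArg v.ord hrel2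
      rw [v.ord_mul hT64 hU16, hU16ord, BranchTwo.ord_pow'] at this
      push_cast at this
      omega
    have hTpos : 0 < v.ord (T + 64) := by omega
    -- `v(t₂) = 0`, `v(t₂ - 512) = 0`
    have h64F : algebraMap Qb (FN M) 64 = 64 := map_ofNat _ 64
    have h576F : algebraMap Qb (FN M) 576 = 576 := map_ofNat _ 576
    obtain ⟨hT0, hTord⟩ : T ≠ 0 ∧ v.ord T = 0 := by
      have := BranchTwo.ord_const_add v (-64) (by norm_num) (T + 64) 1 hTpos (one_mem _)
      rwa [mul_one, map_neg, h64F, show -64 + (T + 64) = T by ring] at this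
    obtain ⟨hT512, hT512ord⟩ : T - 512 ≠ 0 ∧ v.ord (T - 512) = 0 := by
      have := BranchTwo.ord_const_add v (-576) (by norm_num) (T + 64) 1 hTpos (one_mem _)
      rwa [mul_one, map_neg, h576F, show -576 + (T + 64) = T - 512 by ring] at this
    have hJ : (jF M - 1728) * T ^ 2 = (T + 64) * (T - 512) ^ 2 :=
      key_1728 (jF M) T (BranchTwo.jF_mul_h2F M h2M)
    have h1728F : algebraMap Qb (FN M) 1728 = 1728 := map_ofNat _ 1728
    have hJ0 : jF M - 1728 ≠ 0 := by
      intro hz
      rw [hz, zero_mul] at hJ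
      exact (mul_ne_zero hT64 (pow_ne_zero 2 hT512)) hJ.symm
    have hordJ : v.ord (jF M - 1728) = v.ord (T + 64) := by
      have := congrArg v.ord hJ
      rw [v.ord_mul hJ0 (pow_ne_zero 2 hT0), v.ord_mul hT64 (pow_ne_zero 2 hT512),
        BranchTwo.ord_pow', BranchTwo.ord_pow', hTord, hT512ord] at this
      push_cast at this
      omega
    have hJpos : 0 < v.ord (jF M - algebraMap Qb (FN M) 1728) := by
      rw [h1728F, hordJ]; exact hTpos
    have hdvd := Ramif.ord_1728_dvd M v hJpos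
    rw [h1728F, hordJ] at hdvd
    have hle := Int.le_of_dvd (by norm_num) hdvd
    omega
  · -- generic case: compare with `t₂ - β`, `β = a² / (a + 16)`
    set β : Qb := a ^ 2 / (a + 16) with hβ
    have hβa : β * (a + 16) = a ^ 2 := by rw [hβ]; field_simp
    have hβ0 : β ≠ 0 := by
      rw [hβ]; exact div_ne_zero (pow_ne_zero 2 h0) h16
    have hβ64 : β + 64 ≠ 0 := by
      intro hz
      have h1 : (a + 32) ^ 2 = 0 := by
        have : (β + 64) * (a + 16) = (a + 32) ^ 2 := by linear_combination hβa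
        rw [← this, hz, zero_mul]
      exact h32 (pow_eq_zero_iff (n := 2) (by norm_num) |>.mp h1)
    set B := algebraMap Qb (FN M) β with hB
    have hBA : B * (A + 16) = A ^ 2 := by
      have := congrArg (algebraMap Qb (FN M)) hβa
      rwa [map_mul, map_add, map_pow, h16F] at this
    have key : (T - B) * (U + 16) * (A + 16)
        = (U - A) * (A * (A + 32) + (U - A) * (A + 16)) := key_u4 U T A B hrel hBA
    obtain ⟨hC0, hCord⟩ : A * (A + 32) + (U - A) * (A + 16) ≠ 0 ∧
        v.ord (A * (A + 32) + (U - A) * (A + 16)) = 0 := by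
      have := BranchTwo.ord_const_add v (a * (a + 32)) (mul_ne_zero h0 h32) (U - A)
        (algebraMap Qb (FN M) (a + 16)) hv (hAV _)
      rwa [map_mul, map_add, map_add, h16F, h32F] at this
    have hTB : T - B ≠ 0 := by
      intro hz
      rw [hz, zero_mul, zero_mul] at key
      exact (mul_ne_zero ht0 hC0) key.symm
    have hord : v.ord (T - B) = v.ord (U - A) := by
      have := congrArg v.ord key
      rw [v.ord_mul (mul_ne_zero hTB hU16) hA16, v.ord_mul hTB hU16, hU16ord, hA16ord,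
        v.ord_mul ht0 hC0, hCord] at this
      omega
    rw [← hord] at hv ⊢
    exact BranchTwo.ord_h2F_sub_eq_one M h2M β hβ0 hβ64 v hv

/-! ### The element `u₄` of `L_E` -/

variable (E : IntermediateField ℚ Qb)

/-- `u₄` as an element of `L_E` (`4 ∣ M`). -/
def u4E (h : 4 ∣ M) : ↥(laurentBaseChange E (modularFunctionFieldFull M)) :=
  ⟨u4 E, u4_mem_laurentBaseChange E h⟩

@[simp] theorem coe_u4E (h : 4 ∣ M) :
    ((u4E M E h : ↥(laurentBaseChange E (modularFunctionFieldFull M))) : LaurentSeries E)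
      = u4 E := rfl

theorem transcendental_u4E (h : 4 ∣ M) : Transcendental E (u4E M E h) := by
  intro hal
  have hx' : IsAlgebraic E ((u4E M E h : ↥(laurentBaseChange E (modularFunctionFieldFull M))) :
      LaurentSeries E) := hal.algebraMap (A := LaurentSeries E)
  obtain ⟨c, hc⟩ := Fermat.Agent.S30.Inst.exists_C_eq_of_isAlgebraic _ hx'
  have h1 := congrArg (fun x : LaurentSeries E => x.coeff (-1)) hc
  simp only [coe_u4E, coeff_u4_neg_one] at h1
  rw [HahnSeries.C_apply, HahnSeries.coeff_single_of_ne (by norm_num)] at h1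
  exact one_ne_zero h1

theorem u4E_ne_zero (h : 4 ∣ M) : u4E M E h ≠ 0 := fun h0 =>
  transcendental_u4E M E h (h0 ▸ isAlgebraic_zero)

theorem u4E_add_ne_zero (h : 4 ∣ M) : u4E M E h + 16 ≠ 0 := by
  intro h0
  apply transcendental_u4E M E h
  have h1 : u4E M E h = algebraMap E _ (-16) := by
    rw [map_neg, map_ofNat]; exact eq_neg_of_add_eq_zero_left h0
  rw [h1]
  exact isAlgebraic_algebraMap _

/-- `j · u₄⁴ (u₄ + 16) = (u₄² + 256 u₄ + 4096)³` in `L_E`. -/
theorem jE_mul_u4E (h : 4 ∣ M) (uj : ↥(laurentBaseChange E (modularFunctionFieldFull M)))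
    (huj : (uj : LaurentSeries E) = coeffEmb E jq) :
    uj * u4E M E h ^ 4 * (u4E M E h + 16) = (u4E M E h ^ 2 + 256 * u4E M E h + 4096) ^ 3 := by
  apply Subtype.ext
  have h1 := jq_mul_u4 E
  have hj : coeffEmb E jq = jqModC E := by rw [← jqModC_rat, coeffEmb, coeffMap_jqModC]
  have h2 : ((uj * u4E M E h ^ 4 * (u4E M E h + 16) :
      ↥(laurentBaseChange E (modularFunctionFieldFull M))) : LaurentSeries E)
      = jqModC E * u4 E ^ 4 * (u4 E + 16) := by
    rw [← hj, ← huj]; rfl
  have h3 : (((u4E M E h ^ 2 + 256 * u4E M E h + 4096) ^ 3 :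
      ↥(laurentBaseChange E (modularFunctionFieldFull M))) : LaurentSeries E)
      = (u4 E ^ 2 + 256 * u4 E + 4096) ^ 3 := rfl
  rw [h2, h3]
  exact h1

/-- `j ∈ E(u₄)`. -/
theorem jE_mem_adjoin_u4E (h : 4 ∣ M) (uj : ↥(laurentBaseChange E (modularFunctionFieldFull M)))
    (huj : (uj : LaurentSeries E) = coeffEmb E jq) :
    uj ∈ IntermediateField.adjoin E {u4E M E h} := by
  have hU0 := u4E_ne_zero M E h
  have hU16 := u4E_add_ne_zero M E h
  have h1 : uj = (u4E M E h ^ 2 + 256 * u4E M E h + 4096) ^ 3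
      / (u4E M E h ^ 4 * (u4E M E h + 16)) := by
    rw [eq_div_iff (mul_ne_zero (pow_ne_zero 4 hU0) hU16), ← mul_assoc]
    exact jE_mul_u4E M E h uj huj
  rw [h1]
  have hmem := IntermediateField.mem_adjoin_simple_self E (u4E M E h)
  have hnum : ∀ n : ℕ, (n : ↥(laurentBaseChange E (modularFunctionFieldFull M))) ∈
      IntermediateField.adjoin E {u4E M E h} := fun n => natCast_mem _ n
  have h256 : (256 : ↥(laurentBaseChange E (modularFunctionFieldFull M))) ∈
      IntermediateField.adjoin E {u4E M E h} := by exact_mod_cast hnum 256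
  have h4096 : (4096 : ↥(laurentBaseChange E (modularFunctionFieldFull M))) ∈
      IntermediateField.adjoin E {u4E M E h} := by exact_mod_cast hnum 4096
  have h16 : (16 : ↥(laurentBaseChange E (modularFunctionFieldFull M))) ∈
      IntermediateField.adjoin E {u4E M E h} := by exact_mod_cast hnum 16
  exact div_mem (pow_mem (add_mem (add_mem (pow_mem hmem 2) (mul_mem h256 hmem)) h4096) 3)
    (mul_mem (pow_mem hmem 4) (add_mem hmem h16))

/-- **(T)** `L_E / E(u₄)` is finite as soon as `L_E / E(j)` is. -/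
theorem finiteDimensional_u4E (h : 4 ∣ M)
    (uj : ↥(laurentBaseChange E (modularFunctionFieldFull M)))
    (huj : (uj : LaurentSeries E) = coeffEmb E jq)
    [FiniteDimensional (IntermediateField.adjoin E {uj})
      ↥(laurentBaseChange E (modularFunctionFieldFull M))] :
    FiniteDimensional (IntermediateField.adjoin E {u4E M E h})
      ↥(laurentBaseChange E (modularFunctionFieldFull M)) :=
  HorizTwo.finiteDimensional_of_le'
    (IntermediateField.adjoin_simple_le_iff.mpr (jE_mem_adjoin_u4E M E h uj huj))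

/-- `up (u4E) = u4F`. -/
theorem upHom_u4E (h : 4 ∣ M) :
    Fermat.Agent.S18.PlaceUp.upHom E (modularFunctionFieldFull M) (u4E M E h) = u4F M h := by
  apply Subtype.ext
  rw [Fermat.Agent.S18.PlaceUp.coe_upHom, coe_u4E, coe_u4F]
  exact coeffMap_u4 _

/-- **Unramifiedness of `L_E / E(u₄)` at the closed points other than `0`, `-16`**, places
form. -/
theorem ord_aeval_u4_eq_one (h : 4 ∣ M)
    (f : E[X]) (hf : Irreducible f) (h0 : f.eval 0 ≠ 0) (h16 : f.eval (-16) ≠ 0)
    (v : Place E ↥(laurentBaseChange E (modularFunctionFieldFull M)))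
    (hpos : 0 < v.ord (aeval (u4E M E h) f)) : v.ord (aeval (u4E M E h) f) = 1 := by
  obtain ⟨P, hP⟩ := Fermat.Agent.S18.PlaceUp.exists_place_up E (modularFunctionFieldFull M) v
  have hφu := upHom_u4E M E h
  refine Fermat.Agent.S30.Ramif.ord_aeval_eq_one_of_up (Ω := Qb) (F := FN M)
    (Fermat.Agent.S18.PlaceUp.upHom E (modularFunctionFieldFull M)) ?_ v P hP (u4E M E h) ?_ f
    hf.separable ?_ hpos
  · intro c
    apply Subtype.ext
    rw [Fermat.Agent.S18.PlaceUp.coe_upHom]
    exact Fermat.Agent.S30.GaussDescent.up_algebraMap E c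
  · intro a
    rw [hφu]
    exact u4F_not_const M h a
  · intro a haroot hapos
    rw [hφu] at hapos ⊢
    have ha0 : a ≠ 0 := by
      rintro rfl
      apply h0
      have h1 : (f.map (algebraMap E Qb)).eval (algebraMap E Qb 0) = 0 := by
        rw [map_zero]; exact haroot
      rw [eval_map_apply] at h1
      exact (algebraMap E Qb).injective (by rw [h1, map_zero])
    have ha1 : a + 16 ≠ 0 := by
      intro ha
      have ha' : a = -16 := eq_neg_of_add_eq_zero_left ha
      subst ha'
      apply h16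
      have h1 : (f.map (algebraMap E Qb)).eval (algebraMap E Qb (-16)) = 0 := by
        rw [map_neg, map_ofNat]; exact haroot
      rw [eval_map_apply] at h1
      exact (algebraMap E Qb).injective (by rw [h1, map_zero])
    exact ord_u4F_sub_eq_one M h a ha0 ha1 P hapos

/-- **Hypothesis (ii) of the MODEL THEOREM for `u = u₄`** (`4 ∣ M`): `Model.HorizUnram S u₄` as
soon as `S` contains `0` and `-16`. -/
theorem horizUnram_u4 (h : 4 ∣ M) {O : Type*} [CommRing O] [Algebra O E]
    [FiniteDimensional (IntermediateField.adjoin E {u4E M E h})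
      ↥(laurentBaseChange E (modularFunctionFieldFull M))]
    (S : Finset O) (h0 : ∃ c ∈ S, algebraMap O E c = 0)
    (h16 : ∃ c ∈ S, algebraMap O E c = -16) :
    Fermat.Agent.S30.Model.HorizUnram (E := E) S (u4E M E h) := by
  refine Fermat.Agent.S30.Ramif.horizUnram_of_places E (u4E M E h) (transcendental_u4E M E h) S
    fun f hf hS v _ hpos => ?_
  obtain ⟨c0, hc0S, hc0⟩ := h0
  obtain ⟨c1, hc1S, hc1⟩ := h16
  have key : ∀ a : E, f.eval a = 0 → Associated f (X - C a) := fun a ha =>
    ((irreducible_X_sub_C a).associated_of_dvd hf (dvd_iff_isRoot.mpr ha)).symm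
  refine ord_aeval_u4_eq_one M E h f hf (fun h => ?_) (fun h => ?_) v hpos
  · exact hS c0 hc0S (by rw [hc0]; exact key 0 h)
  · exact hS c1 hc1S (by rw [hc1]; exact key (-16) h)

end Fermat.Agent.S36.Haupt4
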