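import Mathlib
import Fermat.Agent.S18.K1Main
import Fermat.Agent.S18.K1Main.Gt3
import Fermat.Agent.S30.Haupt.K1
import Fermat.Agent.S36.Haupt4.Gauss
import Fermat.Agent.S36.Haupt4.Horiz

/-!
# S36 / Haupt4 / Inputs — the inputs of the Model Theorem for the base `u = u₄` (aux. level 4)

`M` a level with `4 ∣ M`, `E ⊆ ℚ̄`, `O` a discrete valuation ring with fraction field `E`,
`L_E = LE M E ⊆ E((q))`, `u₄ = u4E M E h4 : L_E` the Hauptmodul of `Γ₀(4)`
(`j u₄⁴ (u₄ + 16) = (u₄² + 256 u₄ + 4096)³`, cusp values `0, -16, ∞`).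

* `coe_u4E_eq_iota`, `order_rho_u4_neg` : the integral model `u₄ = ι(u4 O)`, with a pole mod `π`;
* `u4_fin_gauss` : finiteness over `E(u₄)` and hypothesis (i) from the `u = j` inputs `FinGaussC`;
* `u4_horiz` : hypothesis (ii) for every `S ∋ 0, -16`;
* `isUnit_sub_of_mem` : the differences of `S` are units when `2` is a unit;
* `baseInputsC_u4` : `K1Main.BaseInputsC M O E` (when `2` is a unit of `O`);
* `u4_inputs` : all of it for `O = OE A E`, `A` a valuation ring of `ℚ̄` over a prime `ℓ ∤ M`,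
  `E` a number field containing a primitive `M`-th root of unity.
-/

set_option autoImplicit false
set_option linter.unusedSectionVars false
set_option linter.style.haveILetI false
set_option synthInstance.maxHeartbeats 400000
set_option maxHeartbeats 1000000

open ModularCurve AlgebraicCurve Polynomial

noncomputable section

namespace Fermat.Agent.S36.Haupt4

open Fermat.Agent.S18.K1Defs Fermat.Agent.S18.K1Main Fermat.Agent.S30

local notation "Qb" => AlgebraicClosure ℚ

section Generic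

variable (M : ℕ) [NeZero M] (E : IntermediateField ℚ Qb)

variable {O : Type} [CommRing O] [IsDomain O] [IsDiscreteValuationRing O]
  [Algebra O E] [IsFractionRing O E]

/-- `u₄ = ι(u4 O)`: the integral model of `u₄`. -/
theorem coe_u4E_eq_iota (h4 : 4 ∣ M) :
    ((u4E M E h4 : LE M E) : LaurentSeries E) = GaussDVR.iota O E (u4 O) :=
  (coeffMap_u4 (algebraMap O E)).symm

/-- The reduction of `u₄` has a pole. -/
theorem order_rho_u4_neg : (GaussDVR.rho O (u4 O)).order < 0 := by
  have h1 : GaussDVR.rho O (u4 O) = u4 (IsLocalRing.ResidueField O) :=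
    coeffMap_u4 (IsLocalRing.residue O)
  rw [h1]
  have h2 : (u4 (IsLocalRing.ResidueField O)).coeff (-1) ≠ 0 := by
    rw [coeff_u4_neg_one]
    exact one_ne_zero
  exact lt_of_le_of_lt (HahnSeries.order_le_of_coeff_ne_zero h2) (by norm_num)

omit [IsDomain O] [IsDiscreteValuationRing O] in
/-- The cusp values `0, -16` of `u₄` are distinct modulo the maximal ideal when `2` is a unit. -/
theorem isUnit_sub_of_mem [DecidableEq O] (h2 : IsUnit (2 : O)) :
    ∀ c ∈ ({0, -16} : Finset O), ∀ c' ∈ ({0, -16} : Finset O), c ≠ c' → IsUnit (c - c') := by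
  have h16 : IsUnit (16 : O) := by
    have : (16 : O) = 2 ^ 4 := by norm_num
    rw [this]
    exact h2.pow 4
  intro c hc c' hc' hne
  simp only [Finset.mem_insert, Finset.mem_singleton] at hc hc'
  rcases hc with rfl | rfl <;> rcases hc' with rfl | rfl
  · exact absurd rfl hne
  · rw [zero_sub, neg_neg]; exact h16
  · rw [sub_zero]; exact h16.neg
  · exact absurd rfl hne

/-- **Finiteness over `E(u₄)` and hypothesis (i) for `u₄`**, from the same for `j`. -/
theorem u4_fin_gauss (h4 : 4 ∣ M) (hFG : FinGaussC M O E) :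
    letI := algebraOL O E (LE M E)
    FiniteDimensional (IntermediateField.adjoin E {u4E M E h4}) (LE M E) ∧
      ∀ π : O, Irreducible π → Model.GaussUnram (E := E) π (u4E M E h4) := by
  letI := algebraOL O E (LE M E)
  haveI := isScalarTower_OL O E (LE M E)
  obtain ⟨hfin, hG⟩ := hFG
  haveI := hfin
  have hrel := jE_mul_u4E M E h4 (jE M E) rfl
  have hT : Transcendental E (jE M E) := Fermat.Agent.S30.Haupt.K1.transcendental_jE M E
  refine ⟨finiteDimensional_u4E M E h4 (jE M E) rfl, fun π hπ => ?_⟩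
  exact (gaussUnram_u4 π hπ (jE M E) hT (hG π hπ) (u4E M E h4) hrel).2.2

/-- **Hypothesis (ii) for `u₄`**, for every `S ∋ 0, -16`. -/
theorem u4_horiz (h4 : 4 ∣ M)
    [FiniteDimensional (IntermediateField.adjoin E {u4E M E h4}) (LE M E)]
    (S : Finset O) (h0 : (0 : O) ∈ S) (h16 : (-16 : O) ∈ S) :
    Model.HorizUnram (E := E) S (u4E M E h4) :=
  horizUnram_u4 M E h4 S ⟨0, h0, map_zero _⟩ ⟨-16, h16, by rw [map_neg, map_ofNat]⟩

/-- **The inputs of the Model Theorem for `LE M E` with base `u₄`** (`4 ∣ M`, `2` a unit). -/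
theorem baseInputsC_u4 (h4 : 4 ∣ M) (h2 : IsUnit (2 : O)) (hFG : FinGaussC M O E) :
    BaseInputsC M O E := by
  classical
  letI := algebraOL O E (LE M E)
  haveI := isScalarTower_OL O E (LE M E)
  obtain ⟨hfin, hG⟩ := u4_fin_gauss M E h4 hFG
  haveI := hfin
  exact ⟨u4E M E h4, u4 O, {0, -16}, coe_u4E_eq_iota M E h4, order_rho_u4_neg,
    isUnit_sub_of_mem h2, hfin, hG, u4_horiz M E h4 {0, -16} (by simp) (by simp)⟩

end Generic

section Modular

/-- **The E2-type inputs for the coordinate `u₄`** at a level `M`, `4 ∣ M`, over `O_E = A ∩ E`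
for a valuation ring `A` of `ℚ̄` over a prime `ℓ ∤ M` and a number field `E ⊆ ℚ̄` containing a
primitive `M`-th root of unity: transcendence, finiteness, hypotheses (i) and (ii) of the Model
Theorem (for every `S ∋ 0, -16`), and the integral model with a pole modulo `π`. -/
theorem u4_inputs (A : ValuationSubring Qb) (M : ℕ) [NeZero M] (h4 : 4 ∣ M) {ℓ : ℕ}
    [Fact ℓ.Prime] (hℓM : ¬ ℓ ∣ M) (hA : A.LiesOverPrime ℓ)
    (E : IntermediateField ℚ Qb) [FiniteDimensional ℚ E] [IsDiscreteValuationRing (OE A E)]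
    (z : Qb) (hz : IsPrimitiveRoot z M) (hzE : z ∈ E) :
    letI := algebraOL (OE A E) E (LE M E)
    Transcendental E (u4E M E h4) ∧
    FiniteDimensional (IntermediateField.adjoin E {u4E M E h4}) (LE M E) ∧
    (∀ π : OE A E, Irreducible π → Model.GaussUnram (E := E) π (u4E M E h4)) ∧
    (∀ S : Finset (OE A E), (0 : OE A E) ∈ S → (-16 : OE A E) ∈ S →
      Model.HorizUnram (E := E) S (u4E M E h4)) ∧
    ((u4E M E h4 : LE M E) : LaurentSeries E) = GaussDVR.iota (OE A E) E (u4 (OE A E)) ∧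
    (GaussDVR.rho (OE A E) (u4 (OE A E))).order < 0 := by
  classical
  letI := algebraOL (OE A E) E (LE M E)
  haveI := isScalarTower_OL (OE A E) E (LE M E)
  have hℓp : ℓ.Prime := Fact.out
  obtain ⟨ζ₀, hζ₀⟩ := exists_primitiveRoot_OE A E (Nat.pos_of_ne_zero (NeZero.ne M)) hz hzE
  have hM : IsUnit ((M : ℕ) : OE A E) :=
    isUnit_natCast_OE A E hA M
      (Nat.Coprime.symm ((Nat.Prime.coprime_iff_not_dvd hℓp).mpr hℓM))
  have hFG : FinGaussC M (OE A E) E :=
    finGaussC_of M (Fermat.Agent.S24.Theta.iotaBar.comp (algebraMap E Qb)) hζ₀ hM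
  obtain ⟨hfin, hG⟩ := u4_fin_gauss M E h4 hFG
  haveI := hfin
  exact ⟨transcendental_u4E M E h4, hfin, hG, fun S h0 h16 => u4_horiz M E h4 S h0 h16,
    coe_u4E_eq_iota M E h4, order_rho_u4_neg⟩

/-- `2` is a unit of `O_E` when `A` lies over an odd prime. -/
theorem isUnit_two_OE (A : ValuationSubring Qb) {ℓ : ℕ} [Fact ℓ.Prime] (hA : A.LiesOverPrime ℓ)
    (hℓ : ℓ ≠ 2) (E : IntermediateField ℚ Qb) : IsUnit (2 : OE A E) := by
  have hℓp : ℓ.Prime := Fact.out
  have hc : Nat.Coprime 2 ℓ := (Nat.coprime_primes Nat.prime_two hℓp).mpr (Ne.symm hℓ)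
  have := isUnit_natCast_OE A E hA 2 hc
  exact_mod_cast this

/-- `BaseInputsC` with the base `u₄` at every level `M`, `4 ∣ M`, prime to the odd residue
characteristic `ℓ`. -/
theorem baseInputsC_u4_OE (A : ValuationSubring Qb) (M : ℕ) [NeZero M] (h4 : 4 ∣ M) {ℓ : ℕ}
    [Fact ℓ.Prime] (hℓM : ¬ ℓ ∣ M) (hA : A.LiesOverPrime ℓ) (hℓ : ℓ ≠ 2)
    (E : IntermediateField ℚ Qb) [FiniteDimensional ℚ E] [IsDiscreteValuationRing (OE A E)]
    (z : Qb) (hz : IsPrimitiveRoot z M) (hzE : z ∈ E) : BaseInputsC M (OE A E) E := by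
  have hℓp : ℓ.Prime := Fact.out
  obtain ⟨ζ₀, hζ₀⟩ := exists_primitiveRoot_OE A E (Nat.pos_of_ne_zero (NeZero.ne M)) hz hzE
  have hM : IsUnit ((M : ℕ) : OE A E) :=
    isUnit_natCast_OE A E hA M
      (Nat.Coprime.symm ((Nat.Prime.coprime_iff_not_dvd hℓp).mpr hℓM))
  exact baseInputsC_u4 M E h4 (isUnit_two_OE A hA hℓ E)
    (finGaussC_of M (Fermat.Agent.S24.Theta.iotaBar.comp (algebraMap E Qb)) hζ₀ hM)

end Modular

end Fermat.Agent.S36.Haupt4
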