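import Mathlib
import Fermat.Agent.S36.Haupt4.Inputs
import Fermat.Agent.S34.HauptU.LevelMAux

/-!
# S36 / Haupt4 / Fibre — the level-`M'` model facts for the coordinate `u₄` (aux. level 4)

Route sec. 5b (i) of S36 ("`B'bar` normal at level `M'` on both charts") for the coordinate
`u = u₄ = Haupt4.u4E M E h4` (`4 ∣ M`, residue characteristic odd and prime to `M`):
the conclusions of the Model theorem and of its normality complement (`S34/ModelNormal*`),
bundled as `S34.HauptU.LevelMAux.ChartFacts E π u₄ u₄⁻¹`: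

* `u₄`, `u₄⁻¹` transcendental over `E`, `LE M E` finite over `E(u₄)`;
* `π` is a prime element of both chart rings (integral closures of `O[u₄]`, `O[u₄⁻¹]`);
* both special fibres are Dedekind domains (in particular integrally closed domains);
* both special fibres are regular (`RegNB.RegAt`) at EVERY closed point, including the cusps
  over `u₄ = 0, -16` (branch points of the base) and the points over `u₄ = ∞`.

Statements:

* `modelInputs_u4` : the hypotheses of `Model.main_a` for `(LE M E, u₄)`, `S = {0, -16}`;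
* `chartFacts_u4` : generic in a DVR `O` with fraction field `E`, `2 ∈ Oˣ`, from `FinGaussC`;
* `chartFacts_u4_OE` : for `O = OE A E`, `A` over an odd prime `ℓ ∤ M`, `E` a number field
  containing a primitive `M`-th root of unity and with `OE A E` a DVR;
* `exists_chartFacts_u4` : the same, uniformly in `E ⊇ S₀` (`S₀ = {z}`);
* `dedekind_u4`, `prime_u4`, `regAt_zero_u4`, `regAt_inf_u4` : the fields spelled out.
-/

set_option autoImplicit false
set_option synthInstance.maxHeartbeats 400000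
set_option linter.style.haveILetI false
set_option linter.unusedSectionVars false

noncomputable section

open Polynomial IntermediateField ModularCurve

namespace Fermat.Agent.S36.Haupt4.Fibre

open Fermat.Agent.S18.K1Defs Fermat.Agent.S18.K1Main Fermat.Agent.S30 Fermat.Agent.S30.Model
  Fermat.Agent.S34.ModelNormal Fermat.Agent.S34.HauptU.LevelMAux Fermat.Agent.S36.Haupt4

local notation "Qb" => AlgebraicClosure ℚ

/-! ### Generic in the discrete valuation ring -/

section Generic

variable (M : ℕ) [NeZero M] (E : IntermediateField ℚ Qb)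
  {O : Type} [CommRing O] [IsDomain O] [IsDiscreteValuationRing O]
  [Algebra O E] [IsFractionRing O E]

open Classical in
/-- **The hypotheses of the Model theorem for `(LE M E, u₄)`**, `4 ∣ M`, `2 ∈ Oˣ`,
branch values `S = {0, -16}`. -/
theorem modelInputs_u4 (h4 : 4 ∣ M) (h2 : IsUnit (2 : O)) (hFG : FinGaussC M O E)
    (π : O) (hπ : Irreducible π) :
    letI := algebraOL O E (LE M E)
    Transcendental E (u4E M E h4) ∧
      FiniteDimensional (IntermediateField.adjoin E {u4E M E h4}) (LE M E) ∧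
      GaussUnram (E := E) π (u4E M E h4) ∧
      (∀ a ∈ ({0, -16} : Finset O), ∀ a' ∈ ({0, -16} : Finset O), a ≠ a' → IsUnit (a - a')) ∧
      HorizUnram (E := E) ({0, -16} : Finset O) (u4E M E h4) := by
  letI := algebraOL O E (LE M E)
  haveI := isScalarTower_OL O E (LE M E)
  obtain ⟨hfin, hG⟩ := u4_fin_gauss M E h4 hFG
  haveI := hfin
  exact ⟨transcendental_u4E M E h4, hfin, hG π hπ, isUnit_sub_of_mem h2,
    u4_horiz M E h4 {0, -16} (by simp) (by simp)⟩

/-- **The level-`M` facts for the coordinate `u₄`** (charts `u₄` and `u₄⁻¹`), `4 ∣ M`,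
`2 ∈ Oˣ`, from the `u = j` inputs `FinGaussC` at level `M`. -/
theorem chartFacts_u4 (h4 : 4 ∣ M) (h2 : IsUnit (2 : O)) (hFG : FinGaussC M O E)
    (π : O) (hπ : Irreducible π) :
    letI := algebraOL O E (LE M E)
    ChartFacts E π (u4E M E h4) (u4E M E h4)⁻¹ := by
  classical
  letI := algebraOL O E (LE M E)
  haveI := isScalarTower_OL O E (LE M E)
  obtain ⟨hT, hFD, hG, hS, hH⟩ := modelInputs_u4 M E h4 h2 hFG π hπ
  haveI := hFD
  exact chartFacts_of_model π hπ _ hT (algClosedIn_laurent (LE M E)) hG _ hS hH _ rfl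

end Generic

/-! ### The arithmetic instance `O = A ∩ E` -/

section Arithmetic

variable (A : ValuationSubring Qb)

/-- `FinGaussC` (finiteness over `E(j)` and hypothesis (i) for `j`) at a level `M` prime to the
residue characteristic, for a number field `E` containing a primitive `M`-th root of unity. -/
theorem finGaussC_OE (M : ℕ) [NeZero M] {ℓ : ℕ} [Fact ℓ.Prime] (hℓM : ¬ ℓ ∣ M)
    (hA : A.LiesOverPrime ℓ) (E : IntermediateField ℚ Qb) [FiniteDimensional ℚ E]
    [IsDiscreteValuationRing (OE A E)] (z : Qb) (hz : IsPrimitiveRoot z M) (hzE : z ∈ E) :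
    FinGaussC M (OE A E) E := by
  have hℓp : ℓ.Prime := Fact.out
  obtain ⟨ζ₀, hζ₀⟩ := exists_primitiveRoot_OE A E (Nat.pos_of_ne_zero (NeZero.ne M)) hz hzE
  have hM : IsUnit ((M : ℕ) : OE A E) :=
    isUnit_natCast_OE A E hA M
      (Nat.Coprime.symm ((Nat.Prime.coprime_iff_not_dvd hℓp).mpr hℓM))
  exact finGaussC_of M (Fermat.Agent.S24.Theta.iotaBar.comp (algebraMap E Qb)) hζ₀ hM

/-- **The level-`M` facts for `u₄` over `O_E = A ∩ E`**: `4 ∣ M`, `A` over an odd prime
`ℓ ∤ M`, `E` a number field containing a primitive `M`-th root of unity, `O_E` a DVR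
(in S36: `ℓ = q` the bad prime, `E = K` a number field inside the inertia field). -/
theorem chartFacts_u4_OE (M : ℕ) [NeZero M] (h4 : 4 ∣ M) {ℓ : ℕ} [Fact ℓ.Prime]
    (hℓM : ¬ ℓ ∣ M) (hA : A.LiesOverPrime ℓ) (hℓ : ℓ ≠ 2)
    (E : IntermediateField ℚ Qb) [FiniteDimensional ℚ E] [IsDiscreteValuationRing (OE A E)]
    (z : Qb) (hz : IsPrimitiveRoot z M) (hzE : z ∈ E) (π : OE A E) (hπ : Irreducible π) :
    letI := algebraOL (OE A E) E (LE M E)
    ChartFacts E π (u4E M E h4) (u4E M E h4)⁻¹ :=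
  chartFacts_u4 M E h4 (isUnit_two_OE A hA hℓ E) (finGaussC_OE A M hℓM hA E z hz hzE) π hπ

/-- **The level-`M` facts for `u₄`, uniformly in the number field** `E ⊇ S₀`. -/
theorem exists_chartFacts_u4 (M : ℕ) [NeZero M] (h4 : 4 ∣ M) {ℓ : ℕ} [Fact ℓ.Prime]
    (hℓM : ¬ ℓ ∣ M) (hA : A.LiesOverPrime ℓ) (hℓ : ℓ ≠ 2) :
    ∃ S₀ : Finset Qb, ∀ (E : IntermediateField ℚ Qb) [FiniteDimensional ℚ E]
      [IsDiscreteValuationRing (OE A E)], (∀ s ∈ S₀, s ∈ E) →
      ∀ π : OE A E, Irreducible π →
      letI := algebraOL (OE A E) E (LE M E)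
      ChartFacts E π (u4E M E h4) (u4E M E h4)⁻¹ := by
  have : NeZero (M : Qb) := ⟨Nat.cast_ne_zero.mpr (NeZero.ne M)⟩
  obtain ⟨z, hz⟩ := HasEnoughRootsOfUnity.exists_primitiveRoot Qb M
  exact ⟨{z}, fun E _ _ hE π hπ =>
    chartFacts_u4_OE A M h4 hℓM hA hℓ E z hz (hE z (Finset.mem_singleton_self z)) π hπ⟩

/-! ### The fields spelled out (same hypotheses as `chartFacts_u4_OE`) -/

section Fields

variable (M : ℕ) [NeZero M] (h4 : 4 ∣ M) {ℓ : ℕ} [Fact ℓ.Prime]
  (hℓM : ¬ ℓ ∣ M) (hA : A.LiesOverPrime ℓ) (hℓ : ℓ ≠ 2)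
  (E : IntermediateField ℚ Qb) [FiniteDimensional ℚ E] [IsDiscreteValuationRing (OE A E)]
  (z : Qb) (hz : IsPrimitiveRoot z M) (hzE : z ∈ E) (π : OE A E) (hπ : Irreducible π)

include hℓM hA hℓ hz hzE hπ in
/-- `π` is a prime element of both level-`M` chart rings of `u₄`. -/
theorem prime_u4 :
    letI := algebraOL (OE A E) E (LE M E)
    Prime (piC (u4E M E h4) π) ∧ Prime (piC (u4E M E h4)⁻¹ π) := by
  letI := algebraOL (OE A E) E (LE M E)
  have h := chartFacts_u4_OE A M h4 hℓM hA hℓ E z hz hzE π hπ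
  exact ⟨h.prime_zero, h.prime_inf⟩

include hℓM hA hℓ hz hzE hπ in
/-- **`B'bar` is a Dedekind domain on both charts**: the special fibres of the integral
closures of `O[u₄]` and of `O[u₄⁻¹]` in the level-`M` function field. -/
theorem dedekind_u4 :
    letI := algebraOL (OE A E) E (LE M E)
    IsDedekindDomain (integralClosure (Algebra.adjoin (OE A E) {u4E M E h4}) (LE M E) ⧸
        Ideal.span {piC (u4E M E h4) π}) ∧
      IsDedekindDomain (integralClosure (Algebra.adjoin (OE A E) {(u4E M E h4)⁻¹}) (LE M E) ⧸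
        Ideal.span {piC (u4E M E h4)⁻¹ π}) := by
  letI := algebraOL (OE A E) E (LE M E)
  have h := chartFacts_u4_OE A M h4 hℓM hA hℓ E z hz hzE π hπ
  exact ⟨h.dedekind_zero, h.dedekind_inf⟩

include hℓM hA hℓ hz hzE hπ in
/-- The level-`M` model is regular at every closed point of the special fibre of the
`u₄`-chart (cusps over `u₄ = 0, -16` included). -/
theorem regAt_zero_u4 :
    letI := algebraOL (OE A E) E (LE M E)
    ∀ Q : Ideal (integralClosure (Algebra.adjoin (OE A E) {u4E M E h4}) (LE M E)),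
      Q.IsMaximal → piC (u4E M E h4) π ∈ Q → RegNB.RegAt (piC (u4E M E h4) π) Q := by
  letI := algebraOL (OE A E) E (LE M E)
  exact (chartFacts_u4_OE A M h4 hℓM hA hℓ E z hz hzE π hπ).regAt_zero

include hℓM hA hℓ hz hzE hπ in
/-- The level-`M` model is regular at every closed point of the special fibre of the
`u₄⁻¹`-chart. -/
theorem regAt_inf_u4 :
    letI := algebraOL (OE A E) E (LE M E)
    ∀ Q : Ideal (integralClosure (Algebra.adjoin (OE A E) {(u4E M E h4)⁻¹}) (LE M E)),
      Q.IsMaximal → piC (u4E M E h4)⁻¹ π ∈ Q → RegNB.RegAt (piC (u4E M E h4)⁻¹ π) Q := by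
  letI := algebraOL (OE A E) E (LE M E)
  exact (chartFacts_u4_OE A M h4 hℓM hA hℓ E z hz hzE π hπ).regAt_inf

end Fields

end Arithmetic

end Fermat.Agent.S36.Haupt4.Fibre
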