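import Mathlib

/-!
# S36 / Haupt4 / Class — the cusp classes of `u₄` and their invariance (level-free, valuations)

`L` a field, `v` a valuation of `L` (any value group) with `v 2 = 1`, and `u, j, j₄ ∈ L` with

  `j · u⁴ (u + 16) = (u² + 256 u + 4096)³`,   `j₄ · u (u + 16) = (u² + 16 u + 16)³`

(the relations of `j(τ)`, `j(4τ)` with the Hauptmodul `u₄` of `Γ₀(4)`: `Haupt4.jq_mul_u4`,
`Haupt4.jq4_mul_u4`).

* (V2) **classes**: `class_zero`, `class_sixteen`, `class_infty`: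
  `v u < 1 ⟹ v j · (v u)⁴ = 1 ∧ v j₄ · v u = 1` (so `v j = (v j₄)⁴`),
  `v (u + 16) < 1 ⟹ v j · v (u + 16) = 1 ∧ v j₄ · v (u + 16) = 1` (so `v j = v j₄`),
  `1 < v u ⟹ v j = v u ∧ v j₄ = (v u)⁴` (so `(v j)⁴ = v j₄`);
  `one_lt_val_j_iff`, `one_lt_val_j4_iff`: `j` (resp. `j₄`) has a pole iff `u` is in a cusp class.
* (V3) **invariance**: `class_invariant`: if `(u, j, j₄)` and `(u', j', j₄')` are two such triples
  and the pairs `(j, j')`, `(j₄, j₄')` satisfy the Newton-polygon dichotomy of the modular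
  equation of an ODD level `q` (`v j' = (v j)^q` or `v j = (v j')^q` at a pole), then `u` and `u'`
  lie in the same class, and the cusp coordinate `t ∈ {u, u + 16, u⁻¹}` satisfies the same
  dichotomy (`v t' = (v t)^q` or `v t = (v t')^q`).
  Reason: the ratios `v j : v j₄ = 4, 1, 1/4` differ by `4` or `16`, never by `q^{±2}`.
-/

set_option autoImplicit false

namespace Fermat.Agent.S36.Haupt4.Class

variable {L Γ₀ : Type*} [Field L] [LinearOrderedCommGroupWithZero Γ₀] (v : Valuation L Γ₀)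

theorem val_natCast_le_one (n : ℕ) : v (n : L) ≤ 1 := by
  induction n with
  | zero => simp
  | succ n ih =>
    rw [Nat.cast_succ]
    exact v.map_add_le ih (le_of_eq v.map_one)

theorem val_two_pow (h2 : v 2 = 1) (k : ℕ) : v ((2 : L) ^ k) = 1 := by
  rw [map_pow, h2, one_pow]

theorem val_16 (h2 : v 2 = 1) : v (16 : L) = 1 := by
  have h : (16 : L) = 2 ^ 4 := by norm_num
  rw [h]
  exact val_two_pow v h2 4

theorem val_256 (h2 : v 2 = 1) : v (256 : L) = 1 := by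
  have h : (256 : L) = 2 ^ 8 := by norm_num
  rw [h]
  exact val_two_pow v h2 8

theorem val_4096 (h2 : v 2 = 1) : v (4096 : L) = 1 := by
  have h : (4096 : L) = 2 ^ 12 := by norm_num
  rw [h]
  exact val_two_pow v h2 12

/-! ### (V2) the three classes -/

section Classes

variable {u j j4 : L}

/-- Class `0`: `v u < 1`. -/
theorem class_zero (h2 : v 2 = 1)
    (hj : j * u ^ 4 * (u + 16) = (u ^ 2 + 256 * u + 4096) ^ 3)
    (hj4 : j4 * (u * (u + 16)) = (u ^ 2 + 16 * u + 16) ^ 3) (hu : v u < 1) :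
    v (u + 16) = 1 ∧ v j * v u ^ 4 = 1 ∧ v j4 * v u = 1 := by
  have h16 := val_16 v h2
  have h256 := val_256 v h2
  have h4096 := val_4096 v h2
  have hsq : v (u ^ 2) < 1 := by
    rw [map_pow]
    exact pow_lt_one₀ zero_le hu two_ne_zero
  have e1 : v (u + 16) = 1 := by
    rw [v.map_add_eq_of_lt_right (by rw [h16]; exact hu), h16]
  have e2 : v (u ^ 2 + 256 * u + 4096) = 1 := by
    have h1 : v (u ^ 2 + 256 * u) < 1 :=
      v.map_add_lt hsq (by rw [map_mul, h256, one_mul]; exact hu)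
    rw [v.map_add_eq_of_lt_right (by rw [h4096]; exact h1), h4096]
  have e3 : v (u ^ 2 + 16 * u + 16) = 1 := by
    have h1 : v (u ^ 2 + 16 * u) < 1 :=
      v.map_add_lt hsq (by rw [map_mul, h16, one_mul]; exact hu)
    rw [v.map_add_eq_of_lt_right (by rw [h16]; exact h1), h16]
  have hj' := congrArg v hj
  rw [map_mul, map_mul, map_pow, map_pow, e1, e2, mul_one, one_pow] at hj'
  have hj4' := congrArg v hj4
  rw [map_mul, map_mul, map_pow, e1, e3, mul_one, one_pow] at hj4'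
  exact ⟨e1, hj', hj4'⟩

/-- Class `-16`: `v (u + 16) < 1`. -/
theorem class_sixteen (h2 : v 2 = 1)
    (hj : j * u ^ 4 * (u + 16) = (u ^ 2 + 256 * u + 4096) ^ 3)
    (hj4 : j4 * (u * (u + 16)) = (u ^ 2 + 16 * u + 16) ^ 3) (hs : v (u + 16) < 1) :
    v u = 1 ∧ v j * v (u + 16) = 1 ∧ v j4 * v (u + 16) = 1 := by
  have h16 := val_16 v h2
  have h256 := val_256 v h2
  have hsq : v ((u + 16) ^ 2) < 1 := by
    rw [map_pow]
    exact pow_lt_one₀ zero_le hs two_ne_zero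
  have e1 : v u = 1 := by
    have h : u = (u + 16) - 16 := by ring
    rw [h, v.map_sub_eq_of_lt_right (by rw [h16]; exact hs), h16]
  have h224 : v (224 : L) ≤ 1 := by
    have h := val_natCast_le_one v 224
    rwa [Nat.cast_ofNat] at h
  have e2 : v (u ^ 2 + 256 * u + 4096) = 1 := by
    have h : u ^ 2 + 256 * u + 4096 = ((u + 16) ^ 2 + 224 * (u + 16)) + 256 := by ring
    have h1 : v ((u + 16) ^ 2 + 224 * (u + 16)) < 1 := by
      refine v.map_add_lt hsq ?_
      rw [map_mul]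
      exact lt_of_le_of_lt (mul_le_of_le_one_left' h224) hs
    rw [h, v.map_add_eq_of_lt_right (by rw [h256]; exact h1), h256]
  have e3 : v (u ^ 2 + 16 * u + 16) = 1 := by
    have h : u ^ 2 + 16 * u + 16 = ((u + 16) ^ 2 - 16 * (u + 16)) + 16 := by ring
    have h1 : v ((u + 16) ^ 2 - 16 * (u + 16)) < 1 :=
      v.map_sub_lt hsq (by rw [map_mul, h16, one_mul]; exact hs)
    rw [h, v.map_add_eq_of_lt_right (by rw [h16]; exact h1), h16]
  have hj' := congrArg v hj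
  rw [map_mul, map_mul, map_pow, map_pow, e1, e2, one_pow, mul_one, one_pow] at hj'
  have hj4' := congrArg v hj4
  rw [map_mul, map_mul, map_pow, e1, e3, one_mul, one_pow] at hj4'
  exact ⟨e1, hj', hj4'⟩

/-- Class `∞`: `1 < v u`. -/
theorem class_infty (h2 : v 2 = 1)
    (hj : j * u ^ 4 * (u + 16) = (u ^ 2 + 256 * u + 4096) ^ 3)
    (hj4 : j4 * (u * (u + 16)) = (u ^ 2 + 16 * u + 16) ^ 3) (hu : 1 < v u) :
    v (u + 16) = v u ∧ v j = v u ∧ v j4 = v u ^ 4 := by
  have h16 := val_16 v h2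
  have h256 := val_256 v h2
  have h4096 := val_4096 v h2
  have hu0 : v u ≠ 0 := fun h => by rw [h] at hu; exact absurd hu (not_lt.mpr zero_le)
  have hlt : v u < v (u ^ 2) := by
    rw [map_pow, sq]
    calc v u = v u * 1 := (mul_one _).symm
      _ < v u * v u := by
        rw [mul_lt_mul_iff_right₀ (lt_of_le_of_ne zero_le (Ne.symm hu0))]
        exact hu
  have e1 : v (u + 16) = v u := v.map_add_eq_of_lt_left (by rw [h16]; exact hu)
  have e2 : v (u ^ 2 + 256 * u + 4096) = v u ^ 2 := by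
    have h : u ^ 2 + 256 * u + 4096 = u ^ 2 + (256 * u + 4096) := by ring
    have h1 : v (256 * u + 4096) ≤ v u :=
      v.map_add_le (by rw [map_mul, h256, one_mul]) (by rw [h4096]; exact hu.le)
    rw [h, v.map_add_eq_of_lt_left (lt_of_le_of_lt h1 hlt), map_pow]
  have e3 : v (u ^ 2 + 16 * u + 16) = v u ^ 2 := by
    have h : u ^ 2 + 16 * u + 16 = u ^ 2 + (16 * u + 16) := by ring
    have h1 : v (16 * u + 16) ≤ v u :=
      v.map_add_le (by rw [map_mul, h16, one_mul]) (by rw [h16]; exact hu.le)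
    rw [h, v.map_add_eq_of_lt_left (lt_of_le_of_lt h1 hlt), map_pow]
  have hj' := congrArg v hj
  rw [map_mul, map_mul, map_pow, map_pow, e1, e2] at hj'
  have hj4' := congrArg v hj4
  rw [map_mul, map_mul, map_pow, e1, e3] at hj4'
  refine ⟨e1, ?_, ?_⟩
  · apply mul_right_cancel₀ (pow_ne_zero 5 hu0)
    calc v j * v u ^ 5 = v j * v u ^ 4 * v u := by rw [pow_succ (v u) 4, mul_assoc]
      _ = (v u ^ 2) ^ 3 := hj'
      _ = v u * v u ^ 5 := by rw [← pow_mul, ← pow_succ']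
  · apply mul_right_cancel₀ (pow_ne_zero 2 hu0)
    calc v j4 * v u ^ 2 = v j4 * (v u * v u) := by rw [sq]
      _ = (v u ^ 2) ^ 3 := hj4'
      _ = v u ^ 4 * v u ^ 2 := by rw [← pow_mul, ← pow_add]

/-- Outside the three classes `j` and `j₄` are integral. -/
theorem val_le_one_of_not_class (h2 : v 2 = 1)
    (hj : j * u ^ 4 * (u + 16) = (u ^ 2 + 256 * u + 4096) ^ 3)
    (hj4 : j4 * (u * (u + 16)) = (u ^ 2 + 16 * u + 16) ^ 3)
    (h0 : ¬ v u < 1) (hs : ¬ v (u + 16) < 1) (hi : ¬ 1 < v u) : v j ≤ 1 ∧ v j4 ≤ 1 := by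
  have h16 := val_16 v h2
  have h256 := val_256 v h2
  have h4096 := val_4096 v h2
  have e0 : v u = 1 := le_antisymm (not_lt.mp hi) (not_lt.mp h0)
  have e1 : v (u + 16) = 1 :=
    le_antisymm (v.map_add_le e0.le h16.le) (not_lt.mp hs)
  have e2 : v (u ^ 2 + 256 * u + 4096) ≤ 1 :=
    v.map_add_le (v.map_add_le (by rw [map_pow, e0, one_pow])
      (by rw [map_mul, h256, e0, one_mul])) h4096.le
  have e3 : v (u ^ 2 + 16 * u + 16) ≤ 1 :=
    v.map_add_le (v.map_add_le (by rw [map_pow, e0, one_pow])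
      (by rw [map_mul, h16, e0, one_mul])) h16.le
  have hj' := congrArg v hj
  rw [map_mul, map_mul, map_pow, map_pow, e0, e1, one_pow, mul_one, mul_one] at hj'
  have hj4' := congrArg v hj4
  rw [map_mul, map_mul, map_pow, e0, e1, mul_one, mul_one] at hj4'
  exact ⟨by rw [hj']; exact pow_le_one₀ zero_le e2, by rw [hj4']; exact pow_le_one₀ zero_le e3⟩

/-- The three classes, uniformly: a generator `g > 1` of the pole orders. -/
theorem gen_of_class (h2 : v 2 = 1)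
    (hj : j * u ^ 4 * (u + 16) = (u ^ 2 + 256 * u + 4096) ^ 3)
    (hj4 : j4 * (u * (u + 16)) = (u ^ 2 + 16 * u + 16) ^ 3)
    (hc : v u < 1 ∨ v (u + 16) < 1 ∨ 1 < v u) :
    ∃ (g : Γ₀) (m n : ℕ), 1 < g ∧ v j = g ^ m ∧ v j4 = g ^ n ∧
      ((m = 4 ∧ n = 1 ∧ v u < 1 ∧ v (u + 16) = 1 ∧ v u = g⁻¹) ∨
       (m = 1 ∧ n = 1 ∧ v (u + 16) < 1 ∧ v u = 1 ∧ v (u + 16) = g⁻¹) ∨
       (m = 1 ∧ n = 4 ∧ 1 < v u ∧ v (u + 16) = v u ∧ v u = g)) := by
  rcases hc with hu | hs | hu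
  · obtain ⟨e1, e2, e3⟩ := class_zero v h2 hj hj4 hu
    have hu0 : v u ≠ 0 := fun h => by rw [h, mul_zero] at e3; exact zero_ne_one e3
    refine ⟨(v u)⁻¹, 4, 1, (one_lt_inv₀ (lt_of_le_of_ne zero_le (Ne.symm hu0))).mpr hu, ?_, ?_,
      Or.inl ⟨rfl, rfl, hu, e1, (inv_inv _).symm⟩⟩
    · rw [inv_pow]; exact eq_inv_of_mul_eq_one_left e2
    · rw [pow_one]; exact eq_inv_of_mul_eq_one_left e3
  · obtain ⟨e1, e2, e3⟩ := class_sixteen v h2 hj hj4 hs
    have hs0 : v (u + 16) ≠ 0 := fun h => by rw [h, mul_zero] at e3; exact zero_ne_one e3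
    refine ⟨(v (u + 16))⁻¹, 1, 1, (one_lt_inv₀ (lt_of_le_of_ne zero_le (Ne.symm hs0))).mpr hs,
      ?_, ?_, Or.inr (Or.inl ⟨rfl, rfl, hs, e1, (inv_inv _).symm⟩)⟩
    · rw [pow_one]; exact eq_inv_of_mul_eq_one_left e2
    · rw [pow_one]; exact eq_inv_of_mul_eq_one_left e3
  · obtain ⟨e1, e2, e3⟩ := class_infty v h2 hj hj4 hu
    exact ⟨v u, 1, 4, hu, by rw [pow_one]; exact e2, e3, Or.inr (Or.inr ⟨rfl, rfl, hu, e1, rfl⟩)⟩

/-- `j` has a pole exactly in the three classes. -/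
theorem one_lt_val_j_iff (h2 : v 2 = 1)
    (hj : j * u ^ 4 * (u + 16) = (u ^ 2 + 256 * u + 4096) ^ 3)
    (hj4 : j4 * (u * (u + 16)) = (u ^ 2 + 16 * u + 16) ^ 3) :
    1 < v j ↔ (v u < 1 ∨ v (u + 16) < 1 ∨ 1 < v u) := by
  constructor
  · intro hp
    by_contra hc
    rw [not_or, not_or] at hc
    exact absurd hp (not_lt.mpr (val_le_one_of_not_class v h2 hj hj4 hc.1 hc.2.1 hc.2.2).1)
  · intro hc
    obtain ⟨g, m, n, hg, hA, -, hcl⟩ := gen_of_class v h2 hj hj4 hc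
    rw [hA]
    rcases hcl with ⟨rfl, -⟩ | ⟨rfl, -⟩ | ⟨rfl, -⟩
    · exact one_lt_pow₀ hg (by norm_num)
    · exact one_lt_pow₀ hg (by norm_num)
    · exact one_lt_pow₀ hg (by norm_num)

/-- `j₄` has a pole exactly in the three classes. -/
theorem one_lt_val_j4_iff (h2 : v 2 = 1)
    (hj : j * u ^ 4 * (u + 16) = (u ^ 2 + 256 * u + 4096) ^ 3)
    (hj4 : j4 * (u * (u + 16)) = (u ^ 2 + 16 * u + 16) ^ 3) :
    1 < v j4 ↔ (v u < 1 ∨ v (u + 16) < 1 ∨ 1 < v u) := by
  constructor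
  · intro hp
    by_contra hc
    rw [not_or, not_or] at hc
    exact absurd hp (not_lt.mpr (val_le_one_of_not_class v h2 hj hj4 hc.1 hc.2.1 hc.2.2).2)
  · intro hc
    obtain ⟨g, m, n, hg, -, hB, hcl⟩ := gen_of_class v h2 hj hj4 hc
    rw [hB]
    rcases hcl with ⟨-, rfl, -⟩ | ⟨-, rfl, -⟩ | ⟨-, rfl, -⟩
    · exact one_lt_pow₀ hg (by norm_num)
    · exact one_lt_pow₀ hg (by norm_num)
    · exact one_lt_pow₀ hg (by norm_num)

end Classes

/-! ### (V3) invariance of the class -/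

theorem pow_inj_of_one_lt {g : Γ₀} (hg : 1 < g) {a b : ℕ} (h : g ^ a = g ^ b) : a = b := by
  rcases lt_trichotomy a b with hab | hab | hab
  · exact absurd h (ne_of_lt (pow_lt_pow_right₀ hg hab))
  · exact hab
  · exact absurd h.symm (ne_of_lt (pow_lt_pow_right₀ hg hab))

theorem pow_pow_pow (g : Γ₀) (a b c : ℕ) : ((g ^ a) ^ b) ^ c = g ^ (a * b * c) := by
  rw [← pow_mul, ← pow_mul, mul_assoc]

/-- The exponent bookkeeping: two generators `g, g' > 1` related by the Newton dichotomy in two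
ways. -/
theorem exponent_core {g g' : Γ₀} (hg : 1 < g) (hg' : 1 < g') {m n m' n' q : ℕ} (hq : 0 < q)
    (hN : g' ^ m' = (g ^ m) ^ q ∨ g ^ m = (g' ^ m') ^ q)
    (hN4 : g' ^ n' = (g ^ n) ^ q ∨ g ^ n = (g' ^ n') ^ q) :
    m * n' = m' * n ∨ m' * n = m * n' * (q * q) ∨ m * n' = m' * n * (q * q) := by
  rcases hN with h1 | h1 <;> rcases hN4 with h2 | h2
  · left
    have e : g ^ (m * q * n') = g ^ (n * q * m') := by
      calc g ^ (m * q * n') = ((g ^ m) ^ q) ^ n' := (pow_pow_pow g m q n').symm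
        _ = (g' ^ m') ^ n' := by rw [h1]
        _ = (g' ^ n') ^ m' := by rw [← pow_mul, ← pow_mul, mul_comm]
        _ = ((g ^ n) ^ q) ^ m' := by rw [h2]
        _ = g ^ (n * q * m') := pow_pow_pow g n q m'
    have e' := pow_inj_of_one_lt hg e
    apply Nat.eq_of_mul_eq_mul_left hq
    calc q * (m * n') = m * q * n' := by ring
      _ = n * q * m' := e'
      _ = q * (m' * n) := by ring
  · right; left
    have e : g' ^ (m' * n) = g' ^ (n' * q * (m * q)) := by
      calc g' ^ (m' * n) = (g' ^ m') ^ n := by rw [← pow_mul]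
        _ = ((g ^ m) ^ q) ^ n := by rw [h1]
        _ = (g ^ n) ^ (m * q) := by rw [← pow_mul, ← pow_mul, ← pow_mul]; congr 1; ring
        _ = ((g' ^ n') ^ q) ^ (m * q) := by rw [h2]
        _ = g' ^ (n' * q * (m * q)) := pow_pow_pow g' n' q (m * q)
    have e' := pow_inj_of_one_lt hg' e
    rw [e']; ring
  · right; right
    have e : g ^ (m * n') = g ^ (n * q * (m' * q)) := by
      calc g ^ (m * n') = (g ^ m) ^ n' := by rw [← pow_mul]
        _ = ((g' ^ m') ^ q) ^ n' := by rw [h1]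
        _ = (g' ^ n') ^ (m' * q) := by rw [← pow_mul, ← pow_mul, ← pow_mul]; congr 1; ring
        _ = ((g ^ n) ^ q) ^ (m' * q) := by rw [h2]
        _ = g ^ (n * q * (m' * q)) := pow_pow_pow g n q (m' * q)
    have e' := pow_inj_of_one_lt hg e
    rw [e']; ring
  · left
    have e : g' ^ (m' * q * n) = g' ^ (n' * q * m) := by
      calc g' ^ (m' * q * n) = ((g' ^ m') ^ q) ^ n := (pow_pow_pow g' m' q n).symm
        _ = (g ^ m) ^ n := by rw [h1]
        _ = (g ^ n) ^ m := by rw [← pow_mul, ← pow_mul, mul_comm]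
        _ = ((g' ^ n') ^ q) ^ m := by rw [h2]
        _ = g' ^ (n' * q * m) := pow_pow_pow g' n' q m
    have e' := pow_inj_of_one_lt hg' e
    apply Nat.eq_of_mul_eq_mul_left hq
    calc q * (m * n') = n' * q * m := by ring
      _ = m' * q * n := e'.symm
      _ = q * (m' * n) := by ring

/-- **(V3) Class invariance for `u₄`**, odd level `q`. -/
theorem class_invariant (q : ℕ) (hq : Odd q) (h2 : v 2 = 1) {u j j4 u' j' j4' : L}
    (hj : j * u ^ 4 * (u + 16) = (u ^ 2 + 256 * u + 4096) ^ 3)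
    (hj4 : j4 * (u * (u + 16)) = (u ^ 2 + 16 * u + 16) ^ 3)
    (hj' : j' * u' ^ 4 * (u' + 16) = (u' ^ 2 + 256 * u' + 4096) ^ 3)
    (hj4' : j4' * (u' * (u' + 16)) = (u' ^ 2 + 16 * u' + 16) ^ 3)
    (hN : (v j ≤ 1 ↔ v j' ≤ 1) ∧ (1 < v j → v j' = v j ^ q ∨ v j = v j' ^ q))
    (hN4 : (v j4 ≤ 1 ↔ v j4' ≤ 1) ∧ (1 < v j4 → v j4' = v j4 ^ q ∨ v j4 = v j4' ^ q)) :
    (v u < 1 ↔ v u' < 1) ∧ (v (u + 16) < 1 ↔ v (u' + 16) < 1) ∧ (1 < v u ↔ 1 < v u') ∧
    (v u < 1 → v u' = v u ^ q ∨ v u = v u' ^ q) ∧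
    (v (u + 16) < 1 → v (u' + 16) = v (u + 16) ^ q ∨ v (u + 16) = v (u' + 16) ^ q) ∧
    (1 < v u → v u' = v u ^ q ∨ v u = v u' ^ q) := by
  by_cases hp : 1 < v j
  · have hp' : 1 < v j' := by
      by_contra hc
      exact absurd (hN.1.mpr (not_lt.mp hc)) (not_le.mpr hp)
    have hc := (one_lt_val_j_iff v h2 hj hj4).mp hp
    have hc' := (one_lt_val_j_iff v h2 hj' hj4').mp hp'
    have hp4 : 1 < v j4 := (one_lt_val_j4_iff v h2 hj hj4).mpr hc
    obtain ⟨g, m, n, hg, hA, hB, hcl⟩ := gen_of_class v h2 hj hj4 hc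
    obtain ⟨g', m', n', hg', hA', hB', hcl'⟩ := gen_of_class v h2 hj' hj4' hc'
    have hNq := hN.2 hp
    have hN4q := hN4.2 hp4
    rw [hA, hA'] at hNq
    rw [hB, hB'] at hN4q
    have hcore := exponent_core hg hg' hq.pos hNq hN4q
    have hQ : (q * q) % 2 = 1 := Nat.odd_iff.mp (hq.mul hq)
    rcases hcl with ⟨rfl, rfl, a1, a2, a3⟩ | ⟨rfl, rfl, a1, a2, a3⟩ | ⟨rfl, rfl, a1, a2, a3⟩ <;>
    rcases hcl' with ⟨rfl, rfl, b1, b2, b3⟩ | ⟨rfl, rfl, b1, b2, b3⟩ | ⟨rfl, rfl, b1, b2, b3⟩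
    · -- both in class 0
      rw [pow_one, pow_one] at hN4q
      refine ⟨⟨fun _ => b1, fun _ => a1⟩, by rw [a2, b2],
        ⟨fun h => absurd h (not_lt.mpr a1.le), fun h => absurd h (not_lt.mpr b1.le)⟩, fun _ => ?_,
        fun h => by rw [a2] at h; exact absurd h (lt_irrefl _),
        fun h => absurd h (not_lt.mpr a1.le)⟩
      rcases hN4q with h | h
      · left; rw [b3, a3, h, inv_pow]
      · right; rw [b3, a3, h, inv_pow]
    · exfalso; generalize q * q = Q at hcore hQ; omega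
    · exfalso; generalize q * q = Q at hcore hQ; omega
    · exfalso; generalize q * q = Q at hcore hQ; omega
    · -- both in class -16
      rw [pow_one, pow_one] at hN4q
      refine ⟨by rw [a2, b2], ⟨fun _ => b1, fun _ => a1⟩, by rw [a2, b2], 
        fun h => by rw [a2] at h; exact absurd h (lt_irrefl _), fun _ => ?_,
        fun h => by rw [a2] at h; exact absurd h (lt_irrefl _)⟩
      rcases hN4q with h | h
      · left; rw [b3, a3, h, inv_pow]
      · right; rw [b3, a3, h, inv_pow]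
    · exfalso; generalize q * q = Q at hcore hQ; omega
    · exfalso; generalize q * q = Q at hcore hQ; omega
    · exfalso; generalize q * q = Q at hcore hQ; omega
    · -- both in class ∞
      rw [pow_one, pow_one] at hNq
      refine ⟨⟨fun h => absurd h (not_lt.mpr a1.le), fun h => absurd h (not_lt.mpr b1.le)⟩,
        ⟨fun h => by rw [a2] at h; exact absurd h (not_lt.mpr a1.le),
          fun h => by rw [b2] at h; exact absurd h (not_lt.mpr b1.le)⟩,
        ⟨fun _ => b1, fun _ => a1⟩, fun h => absurd h (not_lt.mpr a1.le),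
        fun h => by rw [a2] at h; exact absurd h (not_lt.mpr a1.le), fun _ => ?_⟩
      rcases hNq with h | h
      · left; rw [b3, a3, h]
      · right; rw [b3, a3, h]
  · have hp' : ¬ 1 < v j' := not_lt.mpr (hN.1.mp (not_lt.mp hp))
    have hc : ¬ (v u < 1 ∨ v (u + 16) < 1 ∨ 1 < v u) :=
      fun h => hp ((one_lt_val_j_iff v h2 hj hj4).mpr h)
    have hc' : ¬ (v u' < 1 ∨ v (u' + 16) < 1 ∨ 1 < v u') :=
      fun h => hp' ((one_lt_val_j_iff v h2 hj' hj4').mpr h)
    rw [not_or, not_or] at hc hc'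
    exact ⟨⟨fun h => absurd h hc.1, fun h => absurd h hc'.1⟩,
      ⟨fun h => absurd h hc.2.1, fun h => absurd h hc'.2.1⟩,
      ⟨fun h => absurd h hc.2.2, fun h => absurd h hc'.2.2⟩,
      fun h => absurd h hc.1, fun h => absurd h hc.2.1, fun h => absurd h hc.2.2⟩

end Fermat.Agent.S36.Haupt4.Class
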