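import Mathlib
import Fermat.Agent.S36.CuspVal
import Fermat.Agent.S36.Haupt4.Class

/-!
# S36 / Haupt4 / ClassExit — integrality exits of the cusp-class invariance for `u₄`

`O` a ring in which `2` is a unit, `L` a field over `O`, `q` an odd number `≥ 2`, `Φ` a polynomial
of modular-equation shape (`S34.CuspShape.ShapeCoeffs q Φ`), and two triples `(u, j, j₄)`,
`(u', j', j₄')` of elements of `L` with

  `j · u⁴ (u + 16) = (u² + 256 u + 4096)³`,   `j₄ · u (u + 16) = (u² + 16 u + 16)³`   (same for `'`),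
  `Φ(j, j') = 0`,   `Φ(j₄, j₄') = 0`

(in the application `u = u₄`, `u' = V_q u₄`, `j₄ = j(4τ)`).  Then

* `mem_of_newton` : for every valuation subring `V ⊇ O` of `L`:
  `u ∈ V ↔ u' ∈ V`, `u⁻¹ ∈ V ↔ u'⁻¹ ∈ V`, and for the cusp coordinates `t = u, u + 16` (if `u ∈ V`)
  and `t = u⁻¹` (if `u⁻¹ ∈ V`): `t^q / t' ∈ V` and `t'^q / t ∈ V`;
* `exits` : (I1) `u'` is integral over `O[u]` and `u` over `O[u']`; (I2) `u'⁻¹` is integral over
  `O[u⁻¹]` and `u⁻¹` over `O[u'⁻¹]`; (I3) `θ' = t^q / t'` and `θ'' = t'^q / t` are integral over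
  `O[u]` for `t = u`, `u + 16`, and over `O[u⁻¹]` for `t = u⁻¹`.
-/

set_option autoImplicit false

namespace Fermat.Agent.S36.Haupt4.ClassExit

open Polynomial Fermat.Agent.S34.CuspShape Fermat.Agent.S36.Haupt4.Class

section Val

variable {L Γ₀ : Type*} [Field L] [LinearOrderedCommGroupWithZero Γ₀] (v : Valuation L Γ₀)

theorem u_ne_zero (h2 : v 2 = 1) {u j : L}
    (hj : j * u ^ 4 * (u + 16) = (u ^ 2 + 256 * u + 4096) ^ 3) : u ≠ 0 := by
  rintro rfl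
  have h := congrArg v hj
  have e : ((0 : L) ^ 2 + 256 * 0 + 4096) = 4096 := by ring
  rw [e, map_pow, val_4096 v h2, one_pow] at h
  have e' : j * (0 : L) ^ 4 * (0 + 16) = 0 := by ring
  rw [e', map_zero] at h
  exact zero_ne_one h

theorem u_add_ne_zero (h2 : v 2 = 1) {u j : L}
    (hj : j * u ^ 4 * (u + 16) = (u ^ 2 + 256 * u + 4096) ^ 3) : u + 16 ≠ 0 := by
  intro h0
  have hu : u = -16 := eq_neg_of_add_eq_zero_left h0
  subst hu
  have h := congrArg v hj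
  have e : ((-16 : L) ^ 2 + 256 * (-16) + 4096) = 256 := by ring
  rw [e, map_pow, val_256 v h2, one_pow, h0, mul_zero, map_zero] at h
  exact zero_ne_one h

/-- From the dichotomy to the two inequalities. -/
theorem pow_le_of_dichotomy {a b : Γ₀} {q : ℕ} (hq : 0 < q) (ha : a ≤ 1) (hb : b ≤ 1)
    (h : a < 1 → b = a ^ q ∨ a = b ^ q) (h1 : a = 1 → b = 1) : a ^ q ≤ b ∧ b ^ q ≤ a := by
  rcases lt_or_eq_of_le ha with hlt | heq
  · rcases h hlt with hb' | ha'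
    · refine ⟨hb'.ge, ?_⟩
      rw [hb', ← pow_mul]
      exact pow_le_of_le_one zero_le ha (Nat.mul_ne_zero hq.ne' hq.ne')
    · refine ⟨?_, ha'.ge⟩
      rw [ha', ← pow_mul]
      exact pow_le_of_le_one zero_le hb (Nat.mul_ne_zero hq.ne' hq.ne')
  · rw [heq, h1 heq, one_pow]
    exact ⟨le_rfl, le_rfl⟩

theorem val_div_le_one {x y : L} (h : v x ≤ v y) : v (x / y) ≤ 1 := by
  rw [map_div₀]
  by_cases hy : v y = 0
  · rw [hy, div_zero]
    exact zero_le_one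
  · exact (div_le_one₀ (lt_of_le_of_ne zero_le (Ne.symm hy))).mpr h

end Val

section Subring

variable {L : Type*} [Field L]

/-- **The valuation-subring form**: class invariance gives all memberships at once. -/
theorem mem_of_newton (V : ValuationSubring L) (h2 : V.valuation 2 = 1) (q : ℕ) (hq : Odd q)
    {u j j4 u' j' j4' : L}
    (hj : j * u ^ 4 * (u + 16) = (u ^ 2 + 256 * u + 4096) ^ 3)
    (hj4 : j4 * (u * (u + 16)) = (u ^ 2 + 16 * u + 16) ^ 3)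
    (hj' : j' * u' ^ 4 * (u' + 16) = (u' ^ 2 + 256 * u' + 4096) ^ 3)
    (hj4' : j4' * (u' * (u' + 16)) = (u' ^ 2 + 16 * u' + 16) ^ 3)
    (hN : (j ∈ V ↔ j' ∈ V) ∧
      (j ∉ V → V.valuation j' = V.valuation j ^ q ∨ V.valuation j = V.valuation j' ^ q))
    (hN4 : (j4 ∈ V ↔ j4' ∈ V) ∧
      (j4 ∉ V → V.valuation j4' = V.valuation j4 ^ q ∨ V.valuation j4 = V.valuation j4' ^ q)) :
    (u ∈ V ↔ u' ∈ V) ∧ (u⁻¹ ∈ V ↔ u'⁻¹ ∈ V) ∧
    (u ∈ V → u ^ q / u' ∈ V ∧ u' ^ q / u ∈ V ∧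
      (u + 16) ^ q / (u' + 16) ∈ V ∧ (u' + 16) ^ q / (u + 16) ∈ V) ∧
    (u⁻¹ ∈ V → u⁻¹ ^ q / u'⁻¹ ∈ V ∧ u'⁻¹ ^ q / u⁻¹ ∈ V) := by
  set v := V.valuation with hv
  have mem_iff : ∀ x : L, x ∈ V ↔ v x ≤ 1 := fun x => (V.valuation_le_one_iff x).symm
  have nmem_iff : ∀ x : L, x ∉ V ↔ 1 < v x := fun x => by rw [mem_iff, not_le]
  have hN' : (v j ≤ 1 ↔ v j' ≤ 1) ∧ (1 < v j → v j' = v j ^ q ∨ v j = v j' ^ q) :=
    ⟨by rw [← mem_iff, ← mem_iff]; exact hN.1, fun h => hN.2 ((nmem_iff j).mpr h)⟩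
  have hN4' : (v j4 ≤ 1 ↔ v j4' ≤ 1) ∧ (1 < v j4 → v j4' = v j4 ^ q ∨ v j4 = v j4' ^ q) :=
    ⟨by rw [← mem_iff, ← mem_iff]; exact hN4.1, fun h => hN4.2 ((nmem_iff j4).mpr h)⟩
  obtain ⟨c1, c2, c3, c4, c5, c6⟩ := class_invariant v q hq h2 hj hj4 hj' hj4' hN' hN4'
  have hu0 : v u ≠ 0 := (Valuation.ne_zero_iff v).mpr (u_ne_zero v h2 hj)
  have hu0' : v u' ≠ 0 := (Valuation.ne_zero_iff v).mpr (u_ne_zero v h2 hj')
  have hupos : 0 < v u := lt_of_le_of_ne zero_le (Ne.symm hu0)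
  have hupos' : 0 < v u' := lt_of_le_of_ne zero_le (Ne.symm hu0')
  have h16 : v (16 : L) = 1 := val_16 v h2
  -- (I1) at `V`
  have i1 : u ∈ V ↔ u' ∈ V := by
    rw [mem_iff, mem_iff, ← not_lt, ← not_lt, c3]
  -- (I2) at `V`
  have inv_iff : ∀ x : L, 0 < v x → (x⁻¹ ∈ V ↔ ¬ v x < 1) := by
    intro x hx
    rw [mem_iff, map_inv₀, inv_le_one₀ hx, not_lt]
  have i2 : u⁻¹ ∈ V ↔ u'⁻¹ ∈ V := by
    rw [inv_iff u hupos, inv_iff u' hupos', c1]
  refine ⟨i1, i2, fun hu => ?_, fun hu => ?_⟩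
  · have hu' : u' ∈ V := i1.mp hu
    have ha : v u ≤ 1 := (mem_iff u).mp hu
    have hb : v u' ≤ 1 := (mem_iff u').mp hu'
    have hs : v (u + 16) ≤ 1 := v.map_add_le ha h16.le
    have hs' : v (u' + 16) ≤ 1 := v.map_add_le hb h16.le
    have k1 : v u ^ q ≤ v u' ∧ v u' ^ q ≤ v u :=
      pow_le_of_dichotomy hq.pos ha hb c4 (fun h => by
        refine le_antisymm hb (not_lt.mp fun hlt => ?_)
        have := c1.mpr hlt
        rw [h] at this
        exact lt_irrefl _ this)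
    have k2 : v (u + 16) ^ q ≤ v (u' + 16) ∧ v (u' + 16) ^ q ≤ v (u + 16) :=
      pow_le_of_dichotomy hq.pos hs hs' c5 (fun h => by
        refine le_antisymm hs' (not_lt.mp fun hlt => ?_)
        have := c2.mpr hlt
        rw [h] at this
        exact lt_irrefl _ this)
    refine ⟨(mem_iff _).mpr (val_div_le_one v ?_), (mem_iff _).mpr (val_div_le_one v ?_),
      (mem_iff _).mpr (val_div_le_one v ?_), (mem_iff _).mpr (val_div_le_one v ?_)⟩
    · rw [map_pow]; exact k1.1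
    · rw [map_pow]; exact k1.2
    · rw [map_pow]; exact k2.1
    · rw [map_pow]; exact k2.2
  · have hu' : u'⁻¹ ∈ V := i2.mp hu
    have ha : v u⁻¹ ≤ 1 := (mem_iff _).mp hu
    have hb : v u'⁻¹ ≤ 1 := (mem_iff _).mp hu'
    have k : v u⁻¹ ^ q ≤ v u'⁻¹ ∧ v u'⁻¹ ^ q ≤ v u⁻¹ := by
      refine pow_le_of_dichotomy hq.pos ha hb (fun hlt => ?_) (fun h => ?_)
      · rw [map_inv₀, inv_lt_one₀ hupos] at hlt
        rcases c6 hlt with h | h
        · left; rw [map_inv₀, map_inv₀, h, inv_pow]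
        · right; rw [map_inv₀, map_inv₀, h, inv_pow]
      · rw [map_inv₀, inv_eq_one] at h
        have h1 : ¬ v u' < 1 := fun hlt => by
          have := c1.mpr hlt
          rw [h] at this
          exact lt_irrefl _ this
        have h2' : ¬ 1 < v u' := fun hlt => by
          have := c3.mpr hlt
          rw [h] at this
          exact lt_irrefl _ this
        rw [map_inv₀, inv_eq_one]
        exact le_antisymm (not_lt.mp h2') (not_lt.mp h1)
    refine ⟨(mem_iff _).mpr (val_div_le_one v ?_), (mem_iff _).mpr (val_div_le_one v ?_)⟩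
    · rw [map_pow]; exact k.1
    · rw [map_pow]; exact k.2

end Subring

section Exits

variable {O L : Type*} [CommRing O] [Field L] [Algebra O L]

/-- **(I1), (I2), (I3) for `u₄`**: the integrality exits of the cusp-class invariance. -/
theorem exits (h2 : IsUnit (2 : O)) (q : ℕ) (hq : Odd q) (hq2 : 2 ≤ q)
    (Φ : Polynomial (Polynomial O)) (hΦ : ShapeCoeffs q Φ) {u j j4 u' j' j4' : L}
    (hj : j * u ^ 4 * (u + 16) = (u ^ 2 + 256 * u + 4096) ^ 3)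
    (hj4 : j4 * (u * (u + 16)) = (u ^ 2 + 16 * u + 16) ^ 3)
    (hj' : j' * u' ^ 4 * (u' + 16) = (u' ^ 2 + 256 * u' + 4096) ^ 3)
    (hj4' : j4' * (u' * (u' + 16)) = (u' ^ 2 + 16 * u' + 16) ^ 3)
    (hroot : Φ.eval₂ ((Polynomial.aeval j : O[X] →ₐ[O] L) : O[X] →+* L) j' = 0)
    (hroot4 : Φ.eval₂ ((Polynomial.aeval j4 : O[X] →ₐ[O] L) : O[X] →+* L) j4' = 0) :
    (IsIntegral (Algebra.adjoin O {u}) u' ∧ IsIntegral (Algebra.adjoin O {u'}) u) ∧
    (IsIntegral (Algebra.adjoin O {u⁻¹}) u'⁻¹ ∧ IsIntegral (Algebra.adjoin O {u'⁻¹}) u⁻¹) ∧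
    (IsIntegral (Algebra.adjoin O {u}) (u ^ q / u') ∧
      IsIntegral (Algebra.adjoin O {u}) (u' ^ q / u)) ∧
    (IsIntegral (Algebra.adjoin O {u}) ((u + 16) ^ q / (u' + 16)) ∧
      IsIntegral (Algebra.adjoin O {u}) ((u' + 16) ^ q / (u + 16))) ∧
    (IsIntegral (Algebra.adjoin O {u⁻¹}) (u⁻¹ ^ q / u'⁻¹) ∧
      IsIntegral (Algebra.adjoin O {u⁻¹}) (u'⁻¹ ^ q / u⁻¹)) := by
  have key : ∀ V : ValuationSubring L, (∀ r : O, algebraMap O L r ∈ V) →
      (u ∈ V ↔ u' ∈ V) ∧ (u⁻¹ ∈ V ↔ u'⁻¹ ∈ V) ∧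
      (u ∈ V → u ^ q / u' ∈ V ∧ u' ^ q / u ∈ V ∧
        (u + 16) ^ q / (u' + 16) ∈ V ∧ (u' + 16) ^ q / (u + 16) ∈ V) ∧
      (u⁻¹ ∈ V → u⁻¹ ^ q / u'⁻¹ ∈ V ∧ u'⁻¹ ^ q / u⁻¹ ∈ V) := by
    intro V hV
    have hv2 : V.valuation 2 = 1 := by
      have h := Fermat.Agent.S36.CuspVal.val_unit V.valuation
        (fun r => (V.valuation_le_one_iff _).mpr (hV r)) h2
      rwa [map_ofNat] at h
    exact mem_of_newton V hv2 q hq hj hj4 hj' hj4'
      (Fermat.Agent.S36.CuspVal.newton_valuationSubring V hV q hq2 Φ hΦ j j' hroot)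
      (Fermat.Agent.S36.CuspVal.newton_valuationSubring V hV q hq2 Φ hΦ j4 j4' hroot4)
  refine ⟨⟨?_, ?_⟩, ⟨?_, ?_⟩, ⟨?_, ?_⟩, ⟨?_, ?_⟩, ⟨?_, ?_⟩⟩
  · exact Fermat.Agent.S36.CuspVal.isIntegral_of_forall_valuationSubring u u'
      (fun V hV hu => (key V hV).1.mp hu)
  · exact Fermat.Agent.S36.CuspVal.isIntegral_of_forall_valuationSubring u' u
      (fun V hV hu => (key V hV).1.mpr hu)
  · exact Fermat.Agent.S36.CuspVal.isIntegral_of_forall_valuationSubring u⁻¹ u'⁻¹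
      (fun V hV hu => (key V hV).2.1.mp hu)
  · exact Fermat.Agent.S36.CuspVal.isIntegral_of_forall_valuationSubring u'⁻¹ u⁻¹
      (fun V hV hu => (key V hV).2.1.mpr hu)
  · exact Fermat.Agent.S36.CuspVal.isIntegral_of_forall_valuationSubring u _
      (fun V hV hu => ((key V hV).2.2.1 hu).1)
  · exact Fermat.Agent.S36.CuspVal.isIntegral_of_forall_valuationSubring u _
      (fun V hV hu => ((key V hV).2.2.1 hu).2.1)
  · exact Fermat.Agent.S36.CuspVal.isIntegral_of_forall_valuationSubring u _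
      (fun V hV hu => ((key V hV).2.2.1 hu).2.2.1)
  · exact Fermat.Agent.S36.CuspVal.isIntegral_of_forall_valuationSubring u _
      (fun V hV hu => ((key V hV).2.2.1 hu).2.2.2)
  · exact Fermat.Agent.S36.CuspVal.isIntegral_of_forall_valuationSubring u⁻¹ _
      (fun V hV hu => ((key V hV).2.2.2 hu).1)
  · exact Fermat.Agent.S36.CuspVal.isIntegral_of_forall_valuationSubring u⁻¹ _
      (fun V hV hu => ((key V hV).2.2.2 hu).2)

end Exits

end Fermat.Agent.S36.Haupt4.ClassExit
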