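import Mathlib
import Fermat.Agent.S18.K1Main
import Fermat.Agent.S36.Haupt4.Horiz

/-!
# S36 / Haupt4 / J4 — the relation between `j(4τ)` and `u₄`

* `jq4_mul_u4` : `j(q⁴) · u₄ (u₄ + 16) = (u₄² + 16 u₄ + 16)³` (every commutative ring);
* `jq2_mul_u4` : `j(q²) · u₄² (u₄ + 16)² = (u₄² + 16 u₄ + 256)³`;
* `j4E M E h : L_E`, `j4F M h : F_M` : the function `j(4τ)` at level `M` (`4 ∣ M`), with
  `j4E_mul_u4E`, `j4F_mul_u4F` and the descriptions of its `q`-expansion.

Together with `jq_mul_u4` (`j · u₄⁴ (u₄ + 16) = (u₄² + 256 u₄ + 4096)³`) these are the rational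
relations (R) of the cusp-class argument: `v(j) : v(j₄) = 4, 1, 1/4` at `u₄ = 0, -16, ∞`.
-/

set_option autoImplicit false
set_option linter.unusedSectionVars false

noncomputable section

namespace Fermat.Agent.S36.Haupt4

open AlgebraicCurve Polynomial ModularCurve
open Fermat.Agent.S24.Modular Fermat.Agent.S24.FF Fermat.Agent.S30 Fermat.Agent.S30.AuxLevel

set_option synthInstance.maxHeartbeats 400000
set_option maxHeartbeats 1000000

local notation "Qb" => AlgebraicClosure ℚ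

/-! ### Laurent series over an arbitrary commutative ring -/

section Series

variable (K : Type*) [CommRing K]

/-- `j(q⁴) = V₂ (j(q²))`. -/
theorem qExpand_two_jqN_two : qExpand K 2 (jqNModC K 2) = jqNModC K 4 := by
  rw [jqNModC, jqNModC, qExpand_qExpand]

/-- **`j(q⁴) · u₄ (u₄ + 16) = (u₄² + 16 u₄ + 16)³`.** -/
theorem jq4_mul_u4 :
    jqNModC K 4 * (u4 K * (u4 K + 16)) = (u4 K ^ 2 + 16 * u4 K + 16) ^ 3 := by
  have h := congrArg (qExpand K 2) (jq2_mul_t2 K)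
  rw [map_mul, map_pow, map_add, map_ofNat, qExpand_two_jqN_two, qExpand_t2_eq] at h
  rw [h]
  ring

/-- `j(q²) · u₄² (u₄ + 16)² = (u₄² + 16 u₄ + 256)³`. -/
theorem jq2_mul_u4 :
    jqNModC K 2 * (u4 K ^ 2 * (u4 K + 16) ^ 2) = (u4 K ^ 2 + 16 * u4 K + 256) ^ 3 := by
  have h := jq2_mul_t2 K
  have h5 : u4 K ^ 2 = t2 K * (u4 K + 16) := (t2_mul_u4 K).symm
  calc jqNModC K 2 * (u4 K ^ 2 * (u4 K + 16) ^ 2)
      = jqNModC K 2 * (t2 K * (u4 K + 16) * (u4 K + 16) ^ 2) := by rw [h5]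
    _ = (jqNModC K 2 * t2 K) * (u4 K + 16) ^ 3 := by ring
    _ = (t2 K + 16) ^ 3 * (u4 K + 16) ^ 3 := by rw [h]
    _ = (t2 K * (u4 K + 16) + 16 * u4 K + 256) ^ 3 := by ring
    _ = (u4 K ^ 2 + 16 * u4 K + 256) ^ 3 := by rw [← h5]

end Series

/-! ### The function `j(4τ)` at level `M`, `4 ∣ M` -/

section Level

variable (M : ℕ) [NeZero M]

theorem jq4_mem_laurentBaseChange (L : Type*) [Field L] [Algebra ℚ L] (h : 4 ∣ M) :
    jqNModC L 4 ∈ laurentBaseChange L (modularFunctionFieldFull M) := by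
  have h1 : jqNModC L 4 = coeffEmb L (qExpand ℚ 4 jq) := by
    rw [Fermat.Agent.S24.Puiseux.coeffEmb_qExpand_jq]
    rfl
  rw [h1]
  exact coeffEmb_mem_laurentBaseChange L (jqd_mem_full M h)

/-- `j(4τ)` as an element of the level-`M` function field over `ℚ̄`. -/
def j4F (h : 4 ∣ M) : FN M := ⟨jqNModC Qb 4, jq4_mem_laurentBaseChange M Qb h⟩

@[simp] theorem coe_j4F (h : 4 ∣ M) : ((j4F M h : FN M) : LaurentSeries Qb) = jqNModC Qb 4 := rfl

/-- `j(4τ) · u₄ (u₄ + 16) = (u₄² + 16 u₄ + 16)³` in `F_M`. -/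
theorem j4F_mul_u4F (h : 4 ∣ M) :
    j4F M h * (u4F M h * (u4F M h + 16)) = (u4F M h ^ 2 + 16 * u4F M h + 16) ^ 3 := by
  apply Subtype.ext
  have h1 := jq4_mul_u4 Qb
  have h2 : ((j4F M h * (u4F M h * (u4F M h + 16)) : FN M) : LaurentSeries Qb)
      = jqNModC Qb 4 * (u4 Qb * (u4 Qb + 16)) := rfl
  have h3 : (((u4F M h ^ 2 + 16 * u4F M h + 16) ^ 3 : FN M) : LaurentSeries Qb)
      = (u4 Qb ^ 2 + 16 * u4 Qb + 16) ^ 3 := rfl
  rw [h2, h3]
  exact h1

variable (E : IntermediateField ℚ Qb)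

/-- `j(4τ)` as an element of the level-`M` function field over `E`. -/
def j4E (h : 4 ∣ M) : ↥(laurentBaseChange E (modularFunctionFieldFull M)) :=
  ⟨jqNModC E 4, jq4_mem_laurentBaseChange M E h⟩

@[simp] theorem coe_j4E (h : 4 ∣ M) :
    ((j4E M E h : ↥(laurentBaseChange E (modularFunctionFieldFull M))) : LaurentSeries E)
      = jqNModC E 4 := rfl

theorem coe_j4E_eq_qExpand (h : 4 ∣ M) :
    ((j4E M E h : ↥(laurentBaseChange E (modularFunctionFieldFull M))) : LaurentSeries E)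
      = qExpand E 4 (jqModC E) := rfl

theorem coe_j4E_eq_coeffEmb (h : 4 ∣ M) :
    ((j4E M E h : ↥(laurentBaseChange E (modularFunctionFieldFull M))) : LaurentSeries E)
      = qExpand E 4 (coeffEmb E jq) := by
  have hj : coeffEmb E jq = jqModC E := by rw [← jqModC_rat, coeffEmb, coeffMap_jqModC]
  rw [hj]
  rfl

/-- the integral model: `j(4τ) = V₄ (ι (j))`. -/
theorem coe_j4E_eq_iota {O : Type} [CommRing O] [IsDomain O] [IsDiscreteValuationRing O]
    [Algebra O E] [IsFractionRing O E] (h : 4 ∣ M) :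
    ((j4E M E h : ↥(laurentBaseChange E (modularFunctionFieldFull M))) : LaurentSeries E)
      = qExpand E 4 (Fermat.Agent.S30.GaussDVR.iota O E (jqModC O)) := by
  have hj : Fermat.Agent.S30.GaussDVR.iota O E (jqModC O) = jqModC E :=
    coeffMap_jqModC (algebraMap O E)
  rw [hj]
  rfl

/-- **`j(4τ) · u₄ (u₄ + 16) = (u₄² + 16 u₄ + 16)³`** in `L_E`. -/
theorem j4E_mul_u4E (h : 4 ∣ M) :
    j4E M E h * (u4E M E h * (u4E M E h + 16))
      = (u4E M E h ^ 2 + 16 * u4E M E h + 16) ^ 3 := by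
  apply Subtype.ext
  have h1 := jq4_mul_u4 E
  have h2 : ((j4E M E h * (u4E M E h * (u4E M E h + 16)) :
      ↥(laurentBaseChange E (modularFunctionFieldFull M))) : LaurentSeries E)
      = jqNModC E 4 * (u4 E * (u4 E + 16)) := rfl
  have h3 : (((u4E M E h ^ 2 + 16 * u4E M E h + 16) ^ 3 :
      ↥(laurentBaseChange E (modularFunctionFieldFull M))) : LaurentSeries E)
      = (u4 E ^ 2 + 16 * u4 E + 16) ^ 3 := rfl
  rw [h2, h3]
  exact h1

/-- `up (j4E) = j4F`. -/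
theorem upHom_j4E (h : 4 ∣ M) :
    Fermat.Agent.S18.PlaceUp.upHom E (modularFunctionFieldFull M) (j4E M E h) = j4F M h := by
  apply Subtype.ext
  have h1 : ((Fermat.Agent.S18.PlaceUp.upHom E (modularFunctionFieldFull M) (j4E M E h) : FN M)
      : LaurentSeries Qb) = coeffMap (algebraMap E Qb) (jqNModC E 4) := rfl
  rw [h1, coeffMap_jqNModC]
  rfl

end Level

end Fermat.Agent.S36.Haupt4
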