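import Mathlib
import Fermat.Agent.S34.Sat
import Fermat.Agent.S34.CuspShapeOfPhi
import Fermat.Agent.S36.ShapeInt
import Fermat.Agent.S36.ModEqInt
import Fermat.Agent.S36.Haupt4.J4
import Fermat.Agent.S36.Haupt4.ClassExit

/-!
# S36 / Haupt4 / Hwu — `V_q u₄` is integral over `O[u₄]` (and the other exits), unconditionally

The instance of `Haupt4/ClassExit.exits` (cusp-class invariance by valuations, `CuspVal.newton`)
for the Hauptmodul `u₄` and an odd prime `q`: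

* `exits_sigma` : for any field `L` with a ring homomorphism `σ : L → E((q))`, any ring `O` with
  `2 ∈ Oˣ` and `Algebra O L`, and elements `u, u', j, j', j₄, j₄'` of `L` whose `q`-expansions are
  `u₄, V_q u₄, j, V_q j, j(q⁴), V_q j(q⁴)`: the ten integrality statements (I1), (I2), (I3);
* `exits_series` : the case `L = E((q))`; `isIntegral_qExpand_u4` etc.;
* `exists_int_modPoly_u4` : the modular equation of `u₄` of level `q` over `ℤ`;
* `exits_level`, `hwu_u4E`, … : the case `L = LE (M ℓ) E`, in the literal shapes of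
  `S34/TwoPrimesGauss` (`α = alphaHom`, `w = wHom`).
-/

set_option autoImplicit false
set_option linter.unusedSectionVars false
set_option linter.style.haveILetI false
set_option synthInstance.maxHeartbeats 400000
set_option maxHeartbeats 1000000

open ModularCurve Polynomial

noncomputable section

namespace Fermat.Agent.S36.Haupt4.Hwu

open Fermat.Agent.S34.PhiShape Fermat.Agent.S34.CuspShape Fermat.Agent.S34.CuspShapeOfPhi
open Fermat.Agent.S36.Haupt4 Fermat.Agent.S30.AuxLevel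

local notation "Qb" => AlgebraicClosure ℚ

/-! ### Roots of integer bivariate polynomials -/

section Roots

/-- Ring homomorphisms from `ℤ[X]` are determined by the image of `X`. -/
theorem ringHom_int_poly_ext {S : Type*} [Semiring S] {f g : ℤ[X] →+* S} (h : f X = g X) :
    f = g :=
  Polynomial.ringHom_ext
    (fun a => RingHom.congr_fun (RingHom.ext_int (f.comp Polynomial.C) (g.comp Polynomial.C)) a) h

/-- `(a, b)` is a root of the integer polynomial `P₀` in the ring `S`. -/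
def RootAt {S : Type*} [CommRing S] (P₀ : ℤ[X][X]) (a b : S) : Prop :=
  ∀ f : ℤ[X] →+* S, f X = a → P₀.eval₂ f b = 0

theorem RootAt.hom {S T : Type*} [CommRing S] [CommRing T] {P₀ : ℤ[X][X]} {a b : S}
    (h : RootAt P₀ a b) (φ : S →+* T) : RootAt P₀ (φ a) (φ b) := by
  intro f hf
  let g : ℤ[X] →+* S := Polynomial.eval₂RingHom (Int.castRingHom S) a
  have hg : g X = a := by simp [g]
  have h1 := congrArg φ (h g hg)
  rw [map_zero, Polynomial.hom_eval₂] at h1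
  have e : φ.comp g = f := ringHom_int_poly_ext (by rw [RingHom.comp_apply, hg, hf])
  rw [e] at h1
  exact h1

/-- The modular equation of level `q` between `j` and `V_q j`, over any commutative ring. -/
theorem rootAt_jq {q : ℕ} [NeZero q] {P₀ : ℤ[X][X]} (hP₀ : IsShape ℤ q P₀)
    (E : Type*) [CommRing E] [Nontrivial E] :
    RootAt P₀ (jqModC E) (qExpand E q (jqModC E)) := by
  intro f hf
  have h := (hP₀.map (Int.castRingHom E)).root
  rw [Polynomial.eval₂_map, Fermat.Agent.S28.Char0.qE_eq_qExpand] at h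
  have e : (Polynomial.eval₂RingHom (HahnSeries.C : E →+* LaurentSeries E) (jqModC E)).comp
      (Polynomial.mapRingHom (Int.castRingHom E)) = f :=
    ringHom_int_poly_ext (by simp [hf])
  rw [e] at h
  exact h

/-- From a root of `P₀` at the `σ`-images to a root of the base change of `P₀` to `O`. -/
theorem root_of_sigma {O L S : Type*} [CommRing O] [CommRing L] [Algebra O L] [CommRing S]
    (σ : L →+* S) (hσ : Function.Injective σ) {P₀ : ℤ[X][X]} {x y : L}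
    (h : RootAt P₀ (σ x) (σ y)) :
    (P₀.map (Polynomial.mapRingHom (Int.castRingHom O))).eval₂
      ((Polynomial.aeval x : O[X] →ₐ[O] L) : O[X] →+* L) y = 0 := by
  apply hσ
  rw [map_zero, Polynomial.hom_eval₂, Polynomial.eval₂_map]
  exact h _ (by simp)

end Roots

/-! ### The `σ`-form -/

section Sigma

variable {O L E : Type*} [CommRing O] [Nontrivial O] [Field L] [Algebra O L] [Field E]

/-- **The exits (I1), (I2), (I3) for `u₄`, `σ`-form.** -/
theorem exits_sigma (σ : L →+* LaurentSeries E) (h2 : IsUnit (2 : O)) (q : ℕ) [NeZero q]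
    (hq : q.Prime) (hodd : q ≠ 2) {u u' j j' j4 j4' : L}
    (hu : σ u = u4 E) (hu' : σ u' = qExpand E q (u4 E))
    (hσj : σ j = jqModC E) (hσj' : σ j' = qExpand E q (jqModC E))
    (hσj4 : σ j4 = jqNModC E 4) (hσj4' : σ j4' = qExpand E q (jqNModC E 4)) :
    (IsIntegral (Algebra.adjoin O {u}) u' ∧ IsIntegral (Algebra.adjoin O {u'}) u) ∧
    (IsIntegral (Algebra.adjoin O {u⁻¹}) u'⁻¹ ∧ IsIntegral (Algebra.adjoin O {u'⁻¹}) u⁻¹) ∧
    (IsIntegral (Algebra.adjoin O {u}) (u ^ q / u') ∧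
      IsIntegral (Algebra.adjoin O {u}) (u' ^ q / u)) ∧
    (IsIntegral (Algebra.adjoin O {u}) ((u + 16) ^ q / (u' + 16)) ∧
      IsIntegral (Algebra.adjoin O {u}) ((u' + 16) ^ q / (u + 16))) ∧
    (IsIntegral (Algebra.adjoin O {u⁻¹}) (u⁻¹ ^ q / u'⁻¹) ∧
      IsIntegral (Algebra.adjoin O {u⁻¹}) (u'⁻¹ ^ q / u⁻¹)) := by
  have hσ : Function.Injective σ := σ.injective
  obtain ⟨P₀, hP₀⟩ := Fermat.Agent.S36.ShapeInt.exists_isShape_int hq
  have hΦ : ShapeCoeffs q (P₀.map (Polynomial.mapRingHom (Int.castRingHom O))) :=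
    shapeCoeffs_of_isShape hq.ne_zero (hP₀.map (Int.castRingHom O))
  have hr := rootAt_jq hP₀ E
  -- the four relations
  have hj : j * u ^ 4 * (u + 16) = (u ^ 2 + 256 * u + 4096) ^ 3 := by
    apply hσ
    simp only [map_mul, map_pow, map_add, map_ofNat, hu, hσj]
    exact jq_mul_u4 E
  have hj4 : j4 * (u * (u + 16)) = (u ^ 2 + 16 * u + 16) ^ 3 := by
    apply hσ
    simp only [map_mul, map_pow, map_add, map_ofNat, hu, hσj4]
    exact jq4_mul_u4 E
  have hj' : j' * u' ^ 4 * (u' + 16) = (u' ^ 2 + 256 * u' + 4096) ^ 3 := by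
    apply hσ
    have h := congrArg (qExpand E q) (jq_mul_u4 E)
    simp only [map_mul, map_pow, map_add, map_ofNat] at h
    simp only [map_mul, map_pow, map_add, map_ofNat, hu', hσj']
    exact h
  have hj4' : j4' * (u' * (u' + 16)) = (u' ^ 2 + 16 * u' + 16) ^ 3 := by
    apply hσ
    have h := congrArg (qExpand E q) (jq4_mul_u4 E)
    simp only [map_mul, map_pow, map_add, map_ofNat] at h
    simp only [map_mul, map_pow, map_add, map_ofNat, hu', hσj4']
    exact h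
  -- the two roots
  have hroot : (P₀.map (Polynomial.mapRingHom (Int.castRingHom O))).eval₂
      ((Polynomial.aeval j : O[X] →ₐ[O] L) : O[X] →+* L) j' = 0 := by
    apply root_of_sigma σ hσ
    rw [hσj, hσj']
    exact hr
  have hroot4 : (P₀.map (Polynomial.mapRingHom (Int.castRingHom O))).eval₂
      ((Polynomial.aeval j4 : O[X] →ₐ[O] L) : O[X] →+* L) j4' = 0 := by
    apply root_of_sigma σ hσ
    rw [hσj4, hσj4']
    have h4 := hr.hom (qExpand E 4)
    have e : qExpand E 4 (qExpand E q (jqModC E)) = qExpand E q (jqNModC E 4) := by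
      rw [jqNModC, qExpand_qExpand, qExpand_qExpand]
      exact qExpand_congr (mul_comm 4 q) _
    rw [e] at h4
    exact h4
  have hoddq : Odd q := hq.odd_of_ne_two hodd
  exact Fermat.Agent.S36.Haupt4.ClassExit.exits h2 q hoddq hq.two_le _ hΦ hj hj4 hj' hj4'
    hroot hroot4

end Sigma

/-! ### Series level -/

section Series

variable {O E : Type*} [CommRing O] [Nontrivial O] [Field E] [Algebra O (LaurentSeries E)]

/-- **The exits for `u₄` in `E((q))`.** -/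
theorem exits_series (h2 : IsUnit (2 : O)) (q : ℕ) [NeZero q] (hq : q.Prime) (hodd : q ≠ 2) :
    (IsIntegral (Algebra.adjoin O {u4 E}) (qExpand E q (u4 E)) ∧
      IsIntegral (Algebra.adjoin O {qExpand E q (u4 E)}) (u4 E)) ∧
    (IsIntegral (Algebra.adjoin O {(u4 E)⁻¹}) (qExpand E q (u4 E))⁻¹ ∧
      IsIntegral (Algebra.adjoin O {(qExpand E q (u4 E))⁻¹}) (u4 E)⁻¹) ∧
    (IsIntegral (Algebra.adjoin O {u4 E}) (u4 E ^ q / qExpand E q (u4 E)) ∧
      IsIntegral (Algebra.adjoin O {u4 E}) (qExpand E q (u4 E) ^ q / u4 E)) ∧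
    (IsIntegral (Algebra.adjoin O {u4 E}) ((u4 E + 16) ^ q / (qExpand E q (u4 E) + 16)) ∧
      IsIntegral (Algebra.adjoin O {u4 E}) ((qExpand E q (u4 E) + 16) ^ q / (u4 E + 16))) ∧
    (IsIntegral (Algebra.adjoin O {(u4 E)⁻¹}) ((u4 E)⁻¹ ^ q / (qExpand E q (u4 E))⁻¹) ∧
      IsIntegral (Algebra.adjoin O {(u4 E)⁻¹}) ((qExpand E q (u4 E))⁻¹ ^ q / (u4 E)⁻¹)) :=
  exits_sigma (RingHom.id (LaurentSeries E)) h2 q hq hodd rfl rfl rfl rfl rfl rfl

/-- **`hwu` for `u₄`, series form**: `V_q u₄` is integral over `O[u₄]`. -/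
theorem isIntegral_qExpand_u4 (h2 : IsUnit (2 : O)) (q : ℕ) [NeZero q] (hq : q.Prime)
    (hodd : q ≠ 2) : IsIntegral (Algebra.adjoin O {u4 E}) (qExpand E q (u4 E)) :=
  (exits_series h2 q hq hodd).1.1

/-- `u₄` is integral over `O[V_q u₄]`. -/
theorem isIntegral_u4_qExpand (h2 : IsUnit (2 : O)) (q : ℕ) [NeZero q] (hq : q.Prime)
    (hodd : q ≠ 2) : IsIntegral (Algebra.adjoin O {qExpand E q (u4 E)}) (u4 E) :=
  (exits_series h2 q hq hodd).1.2

/-- Chart at infinity: `(V_q u₄)⁻¹` is integral over `O[u₄⁻¹]`. -/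
theorem isIntegral_qExpand_u4_inv (h2 : IsUnit (2 : O)) (q : ℕ) [NeZero q] (hq : q.Prime)
    (hodd : q ≠ 2) : IsIntegral (Algebra.adjoin O {(u4 E)⁻¹}) (qExpand E q (u4 E))⁻¹ :=
  (exits_series h2 q hq hodd).2.1.1

/-- Chart at infinity: `u₄⁻¹` is integral over `O[(V_q u₄)⁻¹]`. -/
theorem isIntegral_u4_inv_qExpand (h2 : IsUnit (2 : O)) (q : ℕ) [NeZero q] (hq : q.Prime)
    (hodd : q ≠ 2) : IsIntegral (Algebra.adjoin O {(qExpand E q (u4 E))⁻¹}) (u4 E)⁻¹ :=
  (exits_series h2 q hq hodd).2.1.2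

end Series

/-! ### The modular equation of `u₄` over `ℤ` -/

/-- **The modular equation of `u₄` of odd prime level `q` over `ℤ`** (monic, minimal). -/
theorem exists_int_modPoly_u4 (q : ℕ) [NeZero q] (hq : q.Prime) (hodd : q ≠ 2) :
    ∃ Φ : ℤ[X][X], Φ.Monic ∧
      Φ.eval₂ (Fermat.Agent.S36.ModEqInt.evalZ ℤ (u4 ℤ)) (qExpand ℤ q (u4 ℤ)) = 0 ∧
      ∀ P : ℚ[X][X], P.eval₂ (Fermat.Agent.S36.ModEqInt.evalQ (u4 ℚ)) (qExpand ℚ q (u4 ℚ)) = 0 →
        Φ.map (Polynomial.mapRingHom (Int.castRingHom ℚ)) ∣ P := by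
  haveI : Algebra.IsAlgebraic ℚ Qb := AlgebraicClosure.isAlgebraic ℚ
  exact Fermat.Agent.S36.ModEqInt.exists_int_modPoly_u4 (k := Qb) q hq
    (isIntegral_qExpand_u4 (O := Qb) (E := Qb) (IsUnit.mk0 _ two_ne_zero) q hq hodd)

/-! ### Level `M ℓ`, literal shapes of `TwoPrimesGauss` -/

section Level

open Fermat.Agent.S18.K1Defs Fermat.Agent.S30 Fermat.Agent.S30.E2Deg
open Fermat.Agent.S34.TwoPrimesRank Fermat.Agent.S34.HauptU.Plug Fermat.Agent.S34.Sat

variable (M ℓ : ℕ) [NeZero M] [NeZero ℓ] (E : IntermediateField ℚ Qb)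
variable {O : Type*} [CommRing O] [Nontrivial O] [Algebra O (LE (M * ℓ) E)]

/-- **The exits for `u₄` at level `M ℓ`** (`u = α u₄`, `u' = w (α u₄) = β u₄`). -/
theorem exits_level (h2 : IsUnit (2 : O)) (hℓ : ℓ.Prime) (hodd : ℓ ≠ 2) (hℓM : ¬ ℓ ∣ M)
    (h4 : 4 ∣ M) :
    let u := alphaHom M ℓ E (u4E M E h4)
    let u' := wHom M ℓ E hℓ hℓM (alphaHom M ℓ E (u4E M E h4))
    (IsIntegral (Algebra.adjoin O {u}) u' ∧ IsIntegral (Algebra.adjoin O {u'}) u) ∧
    (IsIntegral (Algebra.adjoin O {u⁻¹}) u'⁻¹ ∧ IsIntegral (Algebra.adjoin O {u'⁻¹}) u⁻¹) ∧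
    (IsIntegral (Algebra.adjoin O {u}) (u ^ ℓ / u') ∧
      IsIntegral (Algebra.adjoin O {u}) (u' ^ ℓ / u)) ∧
    (IsIntegral (Algebra.adjoin O {u}) ((u + 16) ^ ℓ / (u' + 16)) ∧
      IsIntegral (Algebra.adjoin O {u}) ((u' + 16) ^ ℓ / (u + 16))) ∧
    (IsIntegral (Algebra.adjoin O {u⁻¹}) (u⁻¹ ^ ℓ / u'⁻¹) ∧
      IsIntegral (Algebra.adjoin O {u⁻¹}) (u'⁻¹ ^ ℓ / u⁻¹)) := by
  intro u u'
  have hu : sigmaHom (M * ℓ) E u = u4 E := by
    rw [sigma_alpha]; rfl
  have hu' : sigmaHom (M * ℓ) E u' = qExpand E ℓ (u4 E) := by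
    rw [sigmaHom_wHom_alpha, hu]
  have hσj : sigmaHom (M * ℓ) E (alphaHom M ℓ E (jE M E)) = jqModC E := sigma_alpha_jE M ℓ E
  have hσj' : sigmaHom (M * ℓ) E (wHom M ℓ E hℓ hℓM (alphaHom M ℓ E (jE M E)))
      = qExpand E ℓ (jqModC E) := by
    rw [sigmaHom_wHom_alpha, hσj]
  have hσj4 : sigmaHom (M * ℓ) E (alphaHom M ℓ E (j4E M E h4)) = jqNModC E 4 := by
    rw [sigma_alpha]; rfl
  have hσj4' : sigmaHom (M * ℓ) E (wHom M ℓ E hℓ hℓM (alphaHom M ℓ E (j4E M E h4)))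
      = qExpand E ℓ (jqNModC E 4) := by
    rw [sigmaHom_wHom_alpha, hσj4]
  exact exits_sigma (sigmaHom (M * ℓ) E) h2 ℓ hℓ hodd hu hu' hσj hσj' hσj4 hσj4'

/-- **`hwu` for `u₄`**, chart zero, literal shape of `TwoPrimesGauss` / `ChartZero`. -/
theorem hwu_u4E (h2 : IsUnit (2 : O)) (hℓ : ℓ.Prime) (hodd : ℓ ≠ 2) (hℓM : ¬ ℓ ∣ M)
    (h4 : 4 ∣ M) :
    IsIntegral (Algebra.adjoin O {alphaHom M ℓ E (u4E M E h4)})
      (wHom M ℓ E hℓ hℓM (alphaHom M ℓ E (u4E M E h4))) :=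
  (exits_level M ℓ E h2 hℓ hodd hℓM h4).1.1

/-- Chart zero, reverse direction: `α u₄` is integral over `O[w (α u₄)]`. -/
theorem hwu_u4E' (h2 : IsUnit (2 : O)) (hℓ : ℓ.Prime) (hodd : ℓ ≠ 2) (hℓM : ¬ ℓ ∣ M)
    (h4 : 4 ∣ M) :
    IsIntegral (Algebra.adjoin O {wHom M ℓ E hℓ hℓM (alphaHom M ℓ E (u4E M E h4))})
      (alphaHom M ℓ E (u4E M E h4)) :=
  (exits_level M ℓ E h2 hℓ hodd hℓM h4).1.2

/-- **`hwu` for `u₄⁻¹`**, chart infinity, literal shape (`α (u₄⁻¹)`, `w (α (u₄⁻¹))`). -/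
theorem hwu_u4E_inv (h2 : IsUnit (2 : O)) (hℓ : ℓ.Prime) (hodd : ℓ ≠ 2) (hℓM : ¬ ℓ ∣ M)
    (h4 : 4 ∣ M) :
    IsIntegral (Algebra.adjoin O {alphaHom M ℓ E (u4E M E h4)⁻¹})
      (wHom M ℓ E hℓ hℓM (alphaHom M ℓ E (u4E M E h4)⁻¹)) := by
  have h := (exits_level M ℓ E h2 hℓ hodd hℓM h4).2.1.1
  rw [map_inv₀, map_inv₀]
  exact h

/-- Chart infinity, reverse direction. -/
theorem hwu_u4E_inv' (h2 : IsUnit (2 : O)) (hℓ : ℓ.Prime) (hodd : ℓ ≠ 2) (hℓM : ¬ ℓ ∣ M)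
    (h4 : 4 ∣ M) :
    IsIntegral (Algebra.adjoin O {wHom M ℓ E hℓ hℓM (alphaHom M ℓ E (u4E M E h4)⁻¹)})
      (alphaHom M ℓ E (u4E M E h4)⁻¹) := by
  have h := (exits_level M ℓ E h2 hℓ hodd hℓM h4).2.1.2
  rw [map_inv₀, map_inv₀]
  exact h

end Level

end Fermat.Agent.S36.Haupt4.Hwu
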