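import Mathlib
import Fermat.Agent.S36.Haupt4.Hwu

/-!
# S36 / Haupt4 / LevelQ — the coordinate `α u₄` at level `M ℓ` (literal shapes for the C1 instance)

`M` a level with `4 ∣ M`, `ℓ` a prime, `α = TwoPrimesRank.alphaHom M ℓ E : LE M E → LE (M ℓ) E`,
`w = HauptU.Plug.wHom M ℓ E hℓ hℓM`.

* `alphaHom_u4E` : `α (u4E M E h4) = u4E (M ℓ) E _` (the same `q`-expansion);
* `transcendental_alpha_u4E`, `finiteDimensional_alpha_u4E` : `α u₄` is transcendental over `E` and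
  `LE (M ℓ) E` is finite over `E(α u₄)`;
* `horizUnram_alpha_u4E` : `Model.HorizUnram S (α u₄)` at the TOP level `M ℓ` for every `S ∋ 0, -16`
  (no condition on `ℓ`);
* `hint_u4E` : for `c ∈ {0, -16}`: `(α u₄ - c)^ℓ / (w (α u₄) - c)` is integral over `O[α u₄]`
  (`ℓ` odd, `2 ∈ Oˣ`): the cusp-separation input (`hnb`) of the level-`ℓ` chart; `hint_u4E'` the
  companion `(w (α u₄) - c)^ℓ / (α u₄ - c)`.
-/

set_option autoImplicit false
set_option linter.unusedSectionVars false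
set_option linter.style.haveILetI false
set_option synthInstance.maxHeartbeats 400000
set_option maxHeartbeats 1000000

open ModularCurve Polynomial

noncomputable section

namespace Fermat.Agent.S36.Haupt4.LevelQ

open Fermat.Agent.S18.K1Defs Fermat.Agent.S30 Fermat.Agent.S30.E2Deg
open Fermat.Agent.S34.TwoPrimesRank Fermat.Agent.S34.HauptU.Plug Fermat.Agent.S34.Sat
open Fermat.Agent.S36.Haupt4 Fermat.Agent.S36.Haupt4.Hwu

local notation "Qb" => AlgebraicClosure ℚ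

variable (M ℓ : ℕ) [NeZero M] [NeZero ℓ] (E : IntermediateField ℚ Qb)

/-- `α u₄` is the Hauptmodul `u₄` of the level `M ℓ`. -/
theorem alphaHom_u4E (h4 : 4 ∣ M) :
    alphaHom M ℓ E (u4E M E h4) = u4E (M * ℓ) E (Dvd.dvd.mul_right h4 ℓ) := by
  apply Subtype.ext
  have h := sigma_alpha M ℓ E (u4E M E h4)
  rw [sigmaHom_apply] at h
  rw [h]
  rfl

theorem transcendental_alpha_u4E (h4 : 4 ∣ M) :
    Transcendental E (alphaHom M ℓ E (u4E M E h4)) := by
  rw [alphaHom_u4E]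
  exact transcendental_u4E (M * ℓ) E _

/-- `LE (M ℓ) E` is finite over `E(α u₄)`. -/
theorem finiteDimensional_alpha_u4E (h4 : 4 ∣ M) :
    FiniteDimensional (IntermediateField.adjoin E {alphaHom M ℓ E (u4E M E h4)})
      (LE (M * ℓ) E) := by
  rw [alphaHom_u4E]
  haveI : FiniteDimensional (IntermediateField.adjoin E {jE (M * ℓ) E}) (LE (M * ℓ) E) :=
    finite_LE (M * ℓ) E
  exact finiteDimensional_u4E (M * ℓ) E _ (jE (M * ℓ) E) rfl

/-- **`Model.HorizUnram S (α u₄)` at the top level `M ℓ`**, for every `S ∋ 0, -16`. -/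
theorem horizUnram_alpha_u4E (h4 : 4 ∣ M) {O : Type*} [CommRing O] [Algebra O E]
    (S : Finset O) (h0 : (0 : O) ∈ S) (h16 : (-16 : O) ∈ S) :
    Fermat.Agent.S30.Model.HorizUnram (E := E) S (alphaHom M ℓ E (u4E M E h4)) := by
  rw [alphaHom_u4E]
  haveI : FiniteDimensional (IntermediateField.adjoin E {u4E (M * ℓ) E (Dvd.dvd.mul_right h4 ℓ)})
      (LE (M * ℓ) E) := by
    have h := finiteDimensional_alpha_u4E M ℓ E h4
    rwa [alphaHom_u4E] at h
  exact horizUnram_u4 (M * ℓ) E _ S ⟨0, h0, map_zero _⟩ ⟨-16, h16, by rw [map_neg, map_ofNat]⟩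

variable {O : Type*} [CommRing O] [Nontrivial O] [Algebra O (LE (M * ℓ) E)]

/-- **Cusp separation input**: for `c ∈ {0, -16}`, `(α u₄ - c)^ℓ / (w (α u₄) - c)` is integral over
`O[α u₄]`. -/
theorem hint_u4E [DecidableEq O] (h2 : IsUnit (2 : O)) (hℓ : ℓ.Prime) (hodd : ℓ ≠ 2)
    (hℓM : ¬ ℓ ∣ M) (h4 : 4 ∣ M) :
    ∀ c ∈ ({0, -16} : Finset O),
      IsIntegral (Algebra.adjoin O {alphaHom M ℓ E (u4E M E h4)})
        ((alphaHom M ℓ E (u4E M E h4) - algebraMap O (LE (M * ℓ) E) c) ^ ℓ /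
          (wHom M ℓ E hℓ hℓM (alphaHom M ℓ E (u4E M E h4)) - algebraMap O (LE (M * ℓ) E) c)) := by
  intro c hc
  have h := exits_level M ℓ E (O := O) h2 hℓ hodd hℓM h4
  simp only [Finset.mem_insert, Finset.mem_singleton] at hc
  rcases hc with rfl | rfl
  · rw [map_zero, sub_zero, sub_zero]
    exact h.2.2.1.1
  · rw [map_neg, map_ofNat, sub_neg_eq_add, sub_neg_eq_add]
    exact h.2.2.2.1.1

/-- The companion: for `c ∈ {0, -16}`, `(w (α u₄) - c)^ℓ / (α u₄ - c)` is integral over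
`O[α u₄]`. -/
theorem hint_u4E' [DecidableEq O] (h2 : IsUnit (2 : O)) (hℓ : ℓ.Prime) (hodd : ℓ ≠ 2)
    (hℓM : ¬ ℓ ∣ M) (h4 : 4 ∣ M) :
    ∀ c ∈ ({0, -16} : Finset O),
      IsIntegral (Algebra.adjoin O {alphaHom M ℓ E (u4E M E h4)})
        ((wHom M ℓ E hℓ hℓM (alphaHom M ℓ E (u4E M E h4)) - algebraMap O (LE (M * ℓ) E) c) ^ ℓ /
          (alphaHom M ℓ E (u4E M E h4) - algebraMap O (LE (M * ℓ) E) c)) := by
  intro c hc
  have h := exits_level M ℓ E (O := O) h2 hℓ hodd hℓM h4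
  simp only [Finset.mem_insert, Finset.mem_singleton] at hc
  rcases hc with rfl | rfl
  · rw [map_zero, sub_zero, sub_zero]
    exact h.2.2.1.2
  · rw [map_neg, map_ofNat, sub_neg_eq_add, sub_neg_eq_add]
    exact h.2.2.2.1.2

end Fermat.Agent.S36.Haupt4.LevelQ
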