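import Mathlib
import Fermat.Agent.S36.Haupt4.LevelQ
import Fermat.Agent.S36.SqRankE

/-!
# S36 / Haupt4 / InfSq — the exits (I1), (I2), (I3) for `u₄` along `(α, β)` at ANY level

`Haupt4/Hwu.exits_level` is stated for the pair `(α u₄, w (α u₄))` and needs `ℓ ∤ M` (the
Atkin–Lehner swap `wHom`).  The chart maps of the level-`R q²` model are restrictions of
`α₂ = alphaHom (R q) q K` and `β₂ = betaHom (R q) q K`, where no swap is available.  Here:

* `sigma_beta` : `σ (β x) = x(q^ℓ)` for `β = SqRankE.betaHom M ℓ E` (any `M`);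
* `exits_alpha_beta` : the ten integrality statements for the pair
  `(alphaHom M ℓ E (u4E M E h4), betaHom M ℓ E (u4E M E h4))`, `ℓ` an odd prime, `2 ∈ Oˣ`,
  NO condition on `ℓ` and `M`;
* `hbeta_u4E`, `halpha_u4E`, `hbetaInv_u4E`, `halphaInv_u4E` : the level-`R q²` literals in the
  binder shapes of `S36/SqInfMaps` / `SqInfMapsInt` (`hβinv`, `hαinv`) and of the chart-`u` map
  `x ↦ β₂ x`:  `u = (α₂.comp α₁) u₄`, `β₂ (α₁ u₄)`.
-/

set_option autoImplicit false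
set_option linter.unusedSectionVars false
set_option linter.style.haveILetI false
set_option synthInstance.maxHeartbeats 400000
set_option maxHeartbeats 1000000

open ModularCurve Polynomial

noncomputable section

namespace Fermat.Agent.S36.Haupt4.InfSq

open Fermat.Agent.S18.K1Defs Fermat.Agent.S30 Fermat.Agent.S30.E2Deg
open Fermat.Agent.S34.TwoPrimesRank Fermat.Agent.S34.HauptU.Plug Fermat.Agent.S34.Sat
open Fermat.Agent.S36.SqRankE
open Fermat.Agent.S36.Haupt4 Fermat.Agent.S36.Haupt4.Hwu Fermat.Agent.S36.Haupt4.LevelQ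

local notation "Qb" => AlgebraicClosure ℚ

section Level

variable (M ℓ : ℕ) [NeZero M] [NeZero ℓ] (E : IntermediateField ℚ Qb)

/-- `σ (β x) = x(q^ℓ)` as `q`-expansions (any level `M`). -/
theorem sigma_beta (x : LE M E) :
    sigmaHom (M * ℓ) E (betaHom M ℓ E x) = qExpand E ℓ (x : LaurentSeries E) := by
  rw [sigmaHom_apply]
  exact coe_heckeBetaBar M ℓ x

variable {O : Type*} [CommRing O] [Nontrivial O] [Algebra O (LE (M * ℓ) E)]

/-- **The exits for `u₄` along `(α, β)` at level `M ℓ`** (`u = α u₄`, `u' = β u₄`), for every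
level `M` with `4 ∣ M` and every odd prime `ℓ` (no condition `ℓ ∤ M`). -/
theorem exits_alpha_beta (h2 : IsUnit (2 : O)) (hℓ : ℓ.Prime) (hodd : ℓ ≠ 2) (h4 : 4 ∣ M) :
    let u := alphaHom M ℓ E (u4E M E h4)
    let u' := betaHom M ℓ E (u4E M E h4)
    (IsIntegral (Algebra.adjoin O {u}) u' ∧ IsIntegral (Algebra.adjoin O {u'}) u) ∧
    (IsIntegral (Algebra.adjoin O {u⁻¹}) u'⁻¹ ∧ IsIntegral (Algebra.adjoin O {u'⁻¹}) u⁻¹) ∧
    (IsIntegral (Algebra.adjoin O {u}) (u ^ ℓ / u') ∧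
      IsIntegral (Algebra.adjoin O {u}) (u' ^ ℓ / u)) ∧
    (IsIntegral (Algebra.adjoin O {u}) ((u + 16) ^ ℓ / (u' + 16)) ∧
      IsIntegral (Algebra.adjoin O {u}) ((u' + 16) ^ ℓ / (u + 16))) ∧
    (IsIntegral (Algebra.adjoin O {u⁻¹}) (u⁻¹ ^ ℓ / u'⁻¹) ∧
      IsIntegral (Algebra.adjoin O {u⁻¹}) (u'⁻¹ ^ ℓ / u⁻¹)) := by
  intro u u'
  have hu : sigmaHom (M * ℓ) E u = u4 E := by
    rw [sigma_alpha]; rfl
  have hu' : sigmaHom (M * ℓ) E u' = qExpand E ℓ (u4 E) := by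
    rw [sigma_beta]; rfl
  have hσj : sigmaHom (M * ℓ) E (alphaHom M ℓ E (jE M E)) = jqModC E := sigma_alpha_jE M ℓ E
  have hσj' : sigmaHom (M * ℓ) E (betaHom M ℓ E (jE M E)) = qExpand E ℓ (jqModC E) := by
    rw [sigma_beta, ← hσj, sigma_alpha]
  have hσj4 : sigmaHom (M * ℓ) E (alphaHom M ℓ E (j4E M E h4)) = jqNModC E 4 := by
    rw [sigma_alpha]; rfl
  have hσj4' : sigmaHom (M * ℓ) E (betaHom M ℓ E (j4E M E h4)) = qExpand E ℓ (jqNModC E 4) := by
    rw [sigma_beta]; rfl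
  exact exits_sigma (sigmaHom (M * ℓ) E) h2 ℓ hℓ hodd hu hu' hσj hσj' hσj4 hσj4'

end Level

/-! ### Level `R q²`: the literal shapes of `SqInfMaps` -/

section Sq

variable (R q : ℕ) [NeZero R] [NeZero q] (K : IntermediateField ℚ Qb)
variable {O : Type*} [CommRing O] [Nontrivial O] [Algebra O (LE (R * q * q) K)]

/-- **Chart `u`**: `β₂ (α₁ u₄)` (expansion `u₄(q^q)`) is integral over `O[α₂ (α₁ u₄)]`. -/
theorem hbeta_u4E (h2 : IsUnit (2 : O)) (hq : q.Prime) (hodd : q ≠ 2) (h4 : 4 ∣ R) :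
    IsIntegral (Algebra.adjoin O {((alphaHom (R * q) q K).comp (alphaHom R q K)) (u4E R K h4)})
      (betaHom (R * q) q K (alphaHom R q K (u4E R K h4))) := by
  rw [RingHom.comp_apply, alphaHom_u4E R q K h4]
  exact (exits_alpha_beta (R * q) q K h2 hq hodd (Dvd.dvd.mul_right h4 q)).1.1

/-- **Chart `u`**, reverse direction: `α₂ (α₁ u₄)` is integral over `O[β₂ (α₁ u₄)]`. -/
theorem halpha_u4E (h2 : IsUnit (2 : O)) (hq : q.Prime) (hodd : q ≠ 2) (h4 : 4 ∣ R) :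
    IsIntegral (Algebra.adjoin O {betaHom (R * q) q K (alphaHom R q K (u4E R K h4))})
      (((alphaHom (R * q) q K).comp (alphaHom R q K)) (u4E R K h4)) := by
  rw [RingHom.comp_apply, alphaHom_u4E R q K h4]
  exact (exits_alpha_beta (R * q) q K h2 hq hodd (Dvd.dvd.mul_right h4 q)).1.2

/-- **`hβinv` of `SqInfMaps.betaInf`** for `u₄`: `(β₂ (α₁ u₄))⁻¹` is integral over
`O[(α₂ (α₁ u₄))⁻¹]`. -/
theorem hbetaInv_u4E (h2 : IsUnit (2 : O)) (hq : q.Prime) (hodd : q ≠ 2) (h4 : 4 ∣ R) :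
    IsIntegral
      (Algebra.adjoin O {(((alphaHom (R * q) q K).comp (alphaHom R q K)) (u4E R K h4))⁻¹})
      (betaHom (R * q) q K (alphaHom R q K (u4E R K h4)))⁻¹ := by
  rw [RingHom.comp_apply, alphaHom_u4E R q K h4]
  exact (exits_alpha_beta (R * q) q K h2 hq hodd (Dvd.dvd.mul_right h4 q)).2.1.1

/-- **`hαinv` of `SqInfMaps.betaInf_isIntegral`** for `u₄`: `(α₂ (α₁ u₄))⁻¹` is integral over
`O[(β₂ (α₁ u₄))⁻¹]`. -/
theorem halphaInv_u4E (h2 : IsUnit (2 : O)) (hq : q.Prime) (hodd : q ≠ 2) (h4 : 4 ∣ R) :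
    IsIntegral (Algebra.adjoin O {(betaHom (R * q) q K (alphaHom R q K (u4E R K h4)))⁻¹})
      (((alphaHom (R * q) q K).comp (alphaHom R q K)) (u4E R K h4))⁻¹ := by
  rw [RingHom.comp_apply, alphaHom_u4E R q K h4]
  exact (exits_alpha_beta (R * q) q K h2 hq hodd (Dvd.dvd.mul_right h4 q)).2.1.2

end Sq

end Fermat.Agent.S36.Haupt4.InfSq
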