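import Mathlib
import Fermat.Agent.S36.Haupt4.Hwu

/-!
# S36 / Haupt4 / HwuHom — the exits for `u₄` twisted by a ring endomorphism of `E((q))`

`exits_sigma_hom` : the ten integrality statements (I1), (I2), (I3) of `Hwu.exits_sigma` for a
pair `(u, u')` of elements of a field `L` whose `q`-expansions (under `σ : L → E((q))`) are
`φ (u₄)` and `φ (V_q u₄)`, for ANY ring homomorphism `φ : E((q)) → E((q))`:

* `φ = id` : the pair `(u₄, V_q u₄)` (level `q`, `Hwu.exits_sigma`);
* `φ = V_q` : the pair `(V_q u₄, V_{q²} u₄)` (level `q²`), `exits_sigma_qExpand`;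
* `φ = (q ↦ ζ q)` : the middle-cusp embeddings.

`isIntegral_sq_sigma` : `V_{q²} u₄` is integral over `O[u₄]` (transitivity), `σ`-form.
-/

set_option autoImplicit false
set_option linter.unusedSectionVars false
set_option synthInstance.maxHeartbeats 400000
set_option maxHeartbeats 1000000

open ModularCurve Polynomial

noncomputable section

namespace Fermat.Agent.S36.Haupt4.Hwu

open Fermat.Agent.S34.PhiShape Fermat.Agent.S34.CuspShape Fermat.Agent.S34.CuspShapeOfPhi
open Fermat.Agent.S36.Haupt4 Fermat.Agent.S30.AuxLevel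

variable {O L E : Type*} [CommRing O] [Nontrivial O] [Field L] [Algebra O L] [Field E]

/-- **The exits (I1), (I2), (I3) for `u₄`, `σ`-form twisted by `φ`.** -/
theorem exits_sigma_hom (σ : L →+* LaurentSeries E) (φ : LaurentSeries E →+* LaurentSeries E)
    (h2 : IsUnit (2 : O)) (q : ℕ) [NeZero q] (hq : q.Prime) (hodd : q ≠ 2)
    {u u' j j' j4 j4' : L}
    (hu : σ u = φ (u4 E)) (hu' : σ u' = φ (qExpand E q (u4 E)))
    (hσj : σ j = φ (jqModC E)) (hσj' : σ j' = φ (qExpand E q (jqModC E)))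
    (hσj4 : σ j4 = φ (jqNModC E 4)) (hσj4' : σ j4' = φ (qExpand E q (jqNModC E 4))) :
    (IsIntegral (Algebra.adjoin O {u}) u' ∧ IsIntegral (Algebra.adjoin O {u'}) u) ∧
    (IsIntegral (Algebra.adjoin O {u⁻¹}) u'⁻¹ ∧ IsIntegral (Algebra.adjoin O {u'⁻¹}) u⁻¹) ∧
    (IsIntegral (Algebra.adjoin O {u}) (u ^ q / u') ∧
      IsIntegral (Algebra.adjoin O {u}) (u' ^ q / u)) ∧
    (IsIntegral (Algebra.adjoin O {u}) ((u + 16) ^ q / (u' + 16)) ∧
      IsIntegral (Algebra.adjoin O {u}) ((u' + 16) ^ q / (u + 16))) ∧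
    (IsIntegral (Algebra.adjoin O {u⁻¹}) (u⁻¹ ^ q / u'⁻¹) ∧
      IsIntegral (Algebra.adjoin O {u⁻¹}) (u'⁻¹ ^ q / u⁻¹)) := by
  have hσ : Function.Injective σ := σ.injective
  obtain ⟨P₀, hP₀⟩ := Fermat.Agent.S36.ShapeInt.exists_isShape_int hq
  have hΦ : ShapeCoeffs q (P₀.map (Polynomial.mapRingHom (Int.castRingHom O))) :=
    shapeCoeffs_of_isShape hq.ne_zero (hP₀.map (Int.castRingHom O))
  have hr := rootAt_jq hP₀ E
  have hj : j * u ^ 4 * (u + 16) = (u ^ 2 + 256 * u + 4096) ^ 3 := by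
    apply hσ
    have h := congrArg φ (jq_mul_u4 E)
    simp only [map_mul, map_pow, map_add, map_ofNat] at h
    simp only [map_mul, map_pow, map_add, map_ofNat, hu, hσj]
    exact h
  have hj4 : j4 * (u * (u + 16)) = (u ^ 2 + 16 * u + 16) ^ 3 := by
    apply hσ
    have h := congrArg φ (jq4_mul_u4 E)
    simp only [map_mul, map_pow, map_add, map_ofNat] at h
    simp only [map_mul, map_pow, map_add, map_ofNat, hu, hσj4]
    exact h
  have hj' : j' * u' ^ 4 * (u' + 16) = (u' ^ 2 + 256 * u' + 4096) ^ 3 := by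
    apply hσ
    have h := congrArg (fun z => φ (qExpand E q z)) (jq_mul_u4 E)
    simp only [map_mul, map_pow, map_add, map_ofNat] at h
    simp only [map_mul, map_pow, map_add, map_ofNat, hu', hσj']
    exact h
  have hj4' : j4' * (u' * (u' + 16)) = (u' ^ 2 + 16 * u' + 16) ^ 3 := by
    apply hσ
    have h := congrArg (fun z => φ (qExpand E q z)) (jq4_mul_u4 E)
    simp only [map_mul, map_pow, map_add, map_ofNat] at h
    simp only [map_mul, map_pow, map_add, map_ofNat, hu', hσj4']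
    exact h
  have hroot : (P₀.map (Polynomial.mapRingHom (Int.castRingHom O))).eval₂
      ((Polynomial.aeval j : O[X] →ₐ[O] L) : O[X] →+* L) j' = 0 := by
    apply root_of_sigma σ hσ
    rw [hσj, hσj']
    exact hr.hom φ
  have hroot4 : (P₀.map (Polynomial.mapRingHom (Int.castRingHom O))).eval₂
      ((Polynomial.aeval j4 : O[X] →ₐ[O] L) : O[X] →+* L) j4' = 0 := by
    apply root_of_sigma σ hσ
    rw [hσj4, hσj4']
    have h4 := hr.hom (qExpand E 4)
    have e : qExpand E 4 (qExpand E q (jqModC E)) = qExpand E q (jqNModC E 4) := by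
      rw [jqNModC, qExpand_qExpand, qExpand_qExpand]
      exact qExpand_congr (mul_comm 4 q) _
    rw [e] at h4
    exact h4.hom φ
  have hoddq : Odd q := hq.odd_of_ne_two hodd
  exact Fermat.Agent.S36.Haupt4.ClassExit.exits h2 q hoddq hq.two_le _ hΦ hj hj4 hj' hj4'
    hroot hroot4

/-- The pair `(V_q u₄, V_{q²} u₄)`: `φ = V_q`. -/
theorem exits_sigma_qExpand (σ : L →+* LaurentSeries E)
    (h2 : IsUnit (2 : O)) (q : ℕ) [NeZero q] (hq : q.Prime) (hodd : q ≠ 2)
    {u u' j j' j4 j4' : L}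
    (hu : σ u = qExpand E q (u4 E)) (hu' : σ u' = qExpand E q (qExpand E q (u4 E)))
    (hσj : σ j = qExpand E q (jqModC E)) (hσj' : σ j' = qExpand E q (qExpand E q (jqModC E)))
    (hσj4 : σ j4 = qExpand E q (jqNModC E 4))
    (hσj4' : σ j4' = qExpand E q (qExpand E q (jqNModC E 4))) :
    (IsIntegral (Algebra.adjoin O {u}) u' ∧ IsIntegral (Algebra.adjoin O {u'}) u) ∧
    (IsIntegral (Algebra.adjoin O {u⁻¹}) u'⁻¹ ∧ IsIntegral (Algebra.adjoin O {u'⁻¹}) u⁻¹) ∧
    (IsIntegral (Algebra.adjoin O {u}) (u ^ q / u') ∧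
      IsIntegral (Algebra.adjoin O {u}) (u' ^ q / u)) ∧
    (IsIntegral (Algebra.adjoin O {u}) ((u + 16) ^ q / (u' + 16)) ∧
      IsIntegral (Algebra.adjoin O {u}) ((u' + 16) ^ q / (u + 16))) ∧
    (IsIntegral (Algebra.adjoin O {u⁻¹}) (u⁻¹ ^ q / u'⁻¹) ∧
      IsIntegral (Algebra.adjoin O {u⁻¹}) (u'⁻¹ ^ q / u⁻¹)) :=
  exits_sigma_hom σ (qExpand E q) h2 q hq hodd hu hu' hσj hσj' hσj4 hσj4'

omit [Nontrivial O] in
/-- Transitivity of integrality over the chart rings: if `y` is integral over `O[x]` and `z` over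
`O[y]`, then `z` is integral over `O[x]`. -/
theorem isIntegral_adjoin_trans {x y z : L} (hxy : IsIntegral (Algebra.adjoin O {x}) y)
    (hyz : IsIntegral (Algebra.adjoin O {y}) z) : IsIntegral (Algebra.adjoin O {x}) z := by
  -- `O[y] ≤ integral closure of O[x]`
  have hle : Algebra.adjoin O {y} ≤
      (integralClosure (Algebra.adjoin O {x}) L).restrictScalars O := by
    refine Algebra.adjoin_le ?_
    rintro _ rfl
    exact hxy
  obtain ⟨p, hp, hpz⟩ := hyz
  -- coefficients of `p` are integral over `O[x]`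
  have hint : ∀ n, IsIntegral (Algebra.adjoin O {x}) ((p.coeff n : Algebra.adjoin O {y}) : L) :=
    fun n => hle (p.coeff n).2
  let f : Algebra.adjoin O {y} →+* integralClosure (Algebra.adjoin O {x}) L :=
    (Subalgebra.inclusion hle : Algebra.adjoin O {y} →ₐ[O] _).toRingHom
  have hz' : IsIntegral (integralClosure (Algebra.adjoin O {x}) L) z := by
    refine ⟨p.map f, hp.map f, ?_⟩
    rw [Polynomial.eval₂_map]
    exact hpz
  exact isIntegral_trans (A := integralClosure (Algebra.adjoin O {x}) L) z hz'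

/-- **`V_{q²} u₄` is integral over `O[u₄]`** (and conversely), `σ`-form. -/
theorem isIntegral_sq_sigma (σ : L →+* LaurentSeries E)
    (h2 : IsUnit (2 : O)) (q : ℕ) [NeZero q] (hq : q.Prime) (hodd : q ≠ 2)
    {u u' u'' j j' j'' j4 j4' j4'' : L}
    (hu : σ u = u4 E) (hu' : σ u' = qExpand E q (u4 E))
    (hu'' : σ u'' = qExpand E q (qExpand E q (u4 E)))
    (hσj : σ j = jqModC E) (hσj' : σ j' = qExpand E q (jqModC E))
    (hσj'' : σ j'' = qExpand E q (qExpand E q (jqModC E)))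
    (hσj4 : σ j4 = jqNModC E 4) (hσj4' : σ j4' = qExpand E q (jqNModC E 4))
    (hσj4'' : σ j4'' = qExpand E q (qExpand E q (jqNModC E 4))) :
    (IsIntegral (Algebra.adjoin O {u}) u'' ∧ IsIntegral (Algebra.adjoin O {u''}) u) ∧
    (IsIntegral (Algebra.adjoin O {u⁻¹}) u''⁻¹ ∧ IsIntegral (Algebra.adjoin O {u''⁻¹}) u⁻¹) := by
  have h1 := exits_sigma (O := O) σ h2 q hq hodd hu hu' hσj hσj' hσj4 hσj4'
  have h2' := exits_sigma_qExpand (O := O) σ h2 q hq hodd hu' hu'' hσj' hσj'' hσj4' hσj4''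
  exact ⟨⟨isIntegral_adjoin_trans h1.1.1 h2'.1.1, isIntegral_adjoin_trans h2'.1.2 h1.1.2⟩,
    ⟨isIntegral_adjoin_trans h1.2.1.1 h2'.2.1.1, isIntegral_adjoin_trans h2'.2.1.2 h1.2.1.2⟩⟩

end Fermat.Agent.S36.Haupt4.Hwu
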