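import Mathlib
import Fermat.Agent.S36.Haupt4.InfSq
import Fermat.Agent.S36.Haupt4.HwuHom

/-!
# S36 / Haupt4 / InfSqB — `u₄` and `V_{q²} u₄` at level `R q²`, literal shapes (`hy`, `hyI`)

For `u = alphaSq R q K u₄` (expansion `u₄`) and `y = betaSq R q K u₄` (expansion `u₄(q^{q²})`),
`q` an odd prime, `2 ∈ Oˣ`, NO condition `q ∤ R`:

* `exits_sq` : `y` is integral over `O[u]`, `u` over `O[y]`, `y⁻¹` over `O[u⁻¹]`, `u⁻¹` over
  `O[y⁻¹]`;
* `hy_u4E`, `hy_u4E'` : the chart-`u` literals (`hy` of `MidVal.package_mid` /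
  `InstA.package_alpha`);
* `hyI_u4E`, `hyI_u4E'` : the chart-`u⁻¹` literals (`hyI`, `hyI'` of `DedInfSq.dedekind_inf` /
  `hreg_inf`): `(betaSq R q K u₄)⁻¹` integral over `O[(alphaSq R q K u₄)⁻¹]` and conversely.
-/

set_option autoImplicit false
set_option linter.unusedSectionVars false
set_option linter.style.haveILetI false
set_option synthInstance.maxHeartbeats 400000
set_option maxHeartbeats 1000000

open ModularCurve Polynomial

noncomputable section

namespace Fermat.Agent.S36.Haupt4.InfSq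

open Fermat.Agent.S18.K1Defs Fermat.Agent.S30 Fermat.Agent.S30.E2Deg
open Fermat.Agent.S34.TwoPrimesRank Fermat.Agent.S34.HauptU.Plug Fermat.Agent.S34.Sat
open Fermat.Agent.S36.SqRankE
open Fermat.Agent.S36.Haupt4 Fermat.Agent.S36.Haupt4.Hwu Fermat.Agent.S36.Haupt4.LevelQ

local notation "Qb" => AlgebraicClosure ℚ

variable (R q : ℕ) [NeZero R] [NeZero q] (K : IntermediateField ℚ Qb)

/-- `σ (α₂ (α₁ x)) = x`. -/
theorem sigma_alpha_alpha (x : LE R K) :
    sigmaHom (R * q * q) K (alphaHom (R * q) q K (alphaHom R q K x)) = (x : LaurentSeries K) := by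
  rw [sigma_alpha, ← sigmaHom_apply, sigma_alpha]

/-- `σ (β₂ (α₁ x)) = x(q^q)`. -/
theorem sigma_beta_alpha (x : LE R K) :
    sigmaHom (R * q * q) K (betaHom (R * q) q K (alphaHom R q K x))
      = qExpand K q (x : LaurentSeries K) := by
  rw [sigma_beta, ← sigmaHom_apply, sigma_alpha]

/-- `σ (β₂ (β₁ x)) = x(q^{q²})`, as two Frobenius steps. -/
theorem sigma_beta_beta (x : LE R K) :
    sigmaHom (R * q * q) K (betaHom (R * q) q K (betaHom R q K x))
      = qExpand K q (qExpand K q (x : LaurentSeries K)) := by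
  rw [sigma_beta, ← sigmaHom_apply, sigma_beta]

variable {O : Type*} [CommRing O] [Nontrivial O] [Algebra O (LE (R * q * q) K)]

/-- **`u₄` and `V_{q²} u₄` at level `R q²`**: integral over each other, on both charts. -/
theorem exits_sq (h2 : IsUnit (2 : O)) (hq : q.Prime) (hodd : q ≠ 2) (h4 : 4 ∣ R) :
    (IsIntegral (Algebra.adjoin O {alphaSq R q K (u4E R K h4)}) (betaSq R q K (u4E R K h4)) ∧
      IsIntegral (Algebra.adjoin O {betaSq R q K (u4E R K h4)}) (alphaSq R q K (u4E R K h4))) ∧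
    (IsIntegral (Algebra.adjoin O {(alphaSq R q K (u4E R K h4))⁻¹})
        (betaSq R q K (u4E R K h4))⁻¹ ∧
      IsIntegral (Algebra.adjoin O {(betaSq R q K (u4E R K h4))⁻¹})
        (alphaSq R q K (u4E R K h4))⁻¹) := by
  have hj0 : ((jE R K : LE R K) : LaurentSeries K) = jqModC K :=
    (sigma_alpha R q K (jE R K)).symm.trans (sigma_alpha_jE R q K)
  have hu : sigmaHom (R * q * q) K (alphaSq R q K (u4E R K h4)) = u4 K := by
    rw [RingHom.comp_apply, sigma_alpha_alpha]; rfl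
  have hu' : sigmaHom (R * q * q) K (betaHom (R * q) q K (alphaHom R q K (u4E R K h4)))
      = qExpand K q (u4 K) := by
    rw [sigma_beta_alpha]; rfl
  have hu'' : sigmaHom (R * q * q) K (betaSq R q K (u4E R K h4))
      = qExpand K q (qExpand K q (u4 K)) := by
    rw [RingHom.comp_apply, sigma_beta_beta]; rfl
  have hσj : sigmaHom (R * q * q) K (alphaSq R q K (jE R K)) = jqModC K := by
    rw [RingHom.comp_apply, sigma_alpha_alpha, hj0]
  have hσj' : sigmaHom (R * q * q) K (betaHom (R * q) q K (alphaHom R q K (jE R K)))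
      = qExpand K q (jqModC K) := by
    rw [sigma_beta_alpha, hj0]
  have hσj'' : sigmaHom (R * q * q) K (betaSq R q K (jE R K))
      = qExpand K q (qExpand K q (jqModC K)) := by
    rw [RingHom.comp_apply, sigma_beta_beta, hj0]
  have hσj4 : sigmaHom (R * q * q) K (alphaSq R q K (j4E R K h4)) = jqNModC K 4 := by
    rw [RingHom.comp_apply, sigma_alpha_alpha]; rfl
  have hσj4' : sigmaHom (R * q * q) K (betaHom (R * q) q K (alphaHom R q K (j4E R K h4)))
      = qExpand K q (jqNModC K 4) := by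
    rw [sigma_beta_alpha]; rfl
  have hσj4'' : sigmaHom (R * q * q) K (betaSq R q K (j4E R K h4))
      = qExpand K q (qExpand K q (jqNModC K 4)) := by
    rw [RingHom.comp_apply, sigma_beta_beta]; rfl
  exact isIntegral_sq_sigma (sigmaHom (R * q * q) K) h2 q hq hodd hu hu' hu'' hσj hσj' hσj''
    hσj4 hσj4' hσj4''

/-- **`hy`** for `u₄`: `betaSq R q K u₄` is integral over `O[alphaSq R q K u₄]`. -/
theorem hy_u4E (h2 : IsUnit (2 : O)) (hq : q.Prime) (hodd : q ≠ 2) (h4 : 4 ∣ R) :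
    IsIntegral (Algebra.adjoin O {alphaSq R q K (u4E R K h4)}) (betaSq R q K (u4E R K h4)) :=
  (exits_sq R q K h2 hq hodd h4).1.1

/-- The converse of `hy_u4E`. -/
theorem hy_u4E' (h2 : IsUnit (2 : O)) (hq : q.Prime) (hodd : q ≠ 2) (h4 : 4 ∣ R) :
    IsIntegral (Algebra.adjoin O {betaSq R q K (u4E R K h4)}) (alphaSq R q K (u4E R K h4)) :=
  (exits_sq R q K h2 hq hodd h4).1.2

/-- **`hyI`** for `u₄` (chart at infinity): `(betaSq R q K u₄)⁻¹` is integral over
`O[(alphaSq R q K u₄)⁻¹]`. -/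
theorem hyI_u4E (h2 : IsUnit (2 : O)) (hq : q.Prime) (hodd : q ≠ 2) (h4 : 4 ∣ R) :
    IsIntegral (Algebra.adjoin O {(alphaSq R q K (u4E R K h4))⁻¹})
      (betaSq R q K (u4E R K h4))⁻¹ :=
  (exits_sq R q K h2 hq hodd h4).2.1

/-- **`hyI'`** for `u₄`: `(alphaSq R q K u₄)⁻¹` is integral over `O[(betaSq R q K u₄)⁻¹]`. -/
theorem hyI_u4E' (h2 : IsUnit (2 : O)) (hq : q.Prime) (hodd : q ≠ 2) (h4 : 4 ∣ R) :
    IsIntegral (Algebra.adjoin O {(betaSq R q K (u4E R K h4))⁻¹})
      (alphaSq R q K (u4E R K h4))⁻¹ :=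
  (exits_sq R q K h2 hq hodd h4).2.2

end Fermat.Agent.S36.Haupt4.InfSq
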