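import Mathlib
import Fermat.Agent.S36.Haupt4.Defs

/-!
# S36 / Haupt4 / Eta — `u₄` and `u₄ + 16` are eta quotients

With `P = etaProd = ∏ (1 - Xⁿ) ∈ ℤ⟦X⟧` and `P_d = P(X^d)`:

* `u4Num_eq`     : `u4Num = (P / P₄)⁸`                   (`u₄ = (η(τ)/η(4τ))⁸`)
* `u4Num_add_eq` : `u4Num + 16 X = P₂²⁴ / (P⁸ P₄¹⁶)`     (`u₄ + 16 = η(2τ)²⁴ / (η(τ)⁸ η(4τ)¹⁶)`)

and the Laurent-series forms `u4_eq`, `u4_add_eq` over every commutative ring `K`.

Proof: `u₄³ = t₂(q) t₂(q²)` (from `t₂ (u₄ + 16) = u₄²`, `t₂(q²) = u₄ (u₄ + 16)`), the eta quotient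
has the same cube, and a cube root with constant coefficient `1` is unique in `ℤ⟦X⟧`.
-/

set_option autoImplicit false

noncomputable section

namespace Fermat.Agent.S36.Haupt4

open ModularCurve PowerSeries Fermat.Agent.S30.AuxLevel

/-- The inverse of `etaProd = ∏ (1 - Xⁿ)` in `ℤ⟦X⟧`. -/
def etaInv : PowerSeries ℤ := etaProd ^ 23 * VZ

theorem etaProd_mul_etaInv : etaProd * etaInv = 1 := by
  have h : etaProd * (etaProd ^ 23 * VZ) = etaProd ^ 24 * VZ := by ring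
  rw [etaInv, h]
  exact UZ_mul_VZ

theorem etaInv_pow : etaInv ^ 24 = VZ := by
  have h1 : etaProd ^ 24 * etaInv ^ 24 = 1 := by
    rw [← mul_pow, etaProd_mul_etaInv, one_pow]
  have h2 : UZ * VZ = 1 := UZ_mul_VZ
  have h3 : UZ = etaProd ^ 24 := rfl
  calc etaInv ^ 24 = (UZ * VZ) * etaInv ^ 24 := by rw [h2, one_mul]
    _ = VZ * (etaProd ^ 24 * etaInv ^ 24) := by rw [h3]; ring
    _ = VZ := by rw [h1, mul_one]

theorem constantCoeff_etaProd_mul_etaInv :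
    PowerSeries.constantCoeff etaProd * PowerSeries.constantCoeff etaInv = 1 := by
  rw [← map_mul, etaProd_mul_etaInv, map_one]

/-- The numerator of `(η(τ)/η(4τ))⁸ = q⁻¹ (P / P₄)⁸`. -/
def etaU4Num : PowerSeries ℤ := etaProd ^ 8 * ex 4 etaInv ^ 8

/-- The numerator of `η(2τ)²⁴ / (η(τ)⁸ η(4τ)¹⁶) = q⁻¹ P₂²⁴ / (P⁸ P₄¹⁶)`. -/
def etaU4AddNum : PowerSeries ℤ := ex 2 etaProd ^ 24 * (etaInv ^ 8 * ex 4 etaInv ^ 16)

theorem ex2_ex2 (f : PowerSeries ℤ) : ex 2 (ex 2 f) = ex 4 f := by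
  have h := PowerSeries.expand_mul (R := ℤ) 2 (NeZero.ne 2) 2 (NeZero.ne 2) f
  exact h.symm

theorem BZ_eq_eta : BZ = ex 2 UZ * ex 4 VZ := by
  rw [BZ, t2Num, map_mul, ex2_ex2]

theorem t2Num_mul_BZ : t2Num * BZ = UZ * ex 4 VZ := by
  rw [BZ_eq_eta, t2Num]
  have h := ex_UZ_mul_ex_VZ 2
  calc UZ * ex 2 VZ * (ex 2 UZ * ex 4 VZ) = UZ * (ex 2 UZ * ex 2 VZ) * ex 4 VZ := by ring
    _ = UZ * ex 4 VZ := by rw [h, mul_one]

theorem etaU4Num_cube : etaU4Num ^ 3 = t2Num * BZ := by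
  rw [t2Num_mul_BZ, etaU4Num, ← etaInv_pow, map_pow]
  have h3 : UZ = etaProd ^ 24 := rfl
  rw [h3]
  ring

theorem u4Num_cube : u4Num ^ 3 = t2Num * BZ := by
  rw [BZ_eq]
  linear_combination (-u4Num) * t2Num_mul_u4Num

theorem constantCoeff_etaProd_pow_ne : PowerSeries.constantCoeff etaProd ≠ 0 := by
  intro h
  have := constantCoeff_etaProd_mul_etaInv
  rw [h, zero_mul] at this
  exact zero_ne_one this

theorem constantCoeff_etaU4Num : PowerSeries.constantCoeff etaU4Num = 1 := by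
  have h1 : PowerSeries.constantCoeff (etaU4Num ^ 3) = 1 := by
    rw [etaU4Num_cube, ← u4Num_cube, map_pow, constantCoeff_u4Num, one_pow]
  rw [map_pow] at h1
  -- an integer with cube `1` is `1`
  have h2 : ∀ z : ℤ, z ^ 3 = 1 → z = 1 := by
    intro z hz
    have hz1 : IsUnit z := IsUnit.of_pow_eq_one hz (by norm_num)
    rcases Int.isUnit_iff.mp hz1 with h | h
    · exact h
    · rw [h] at hz; norm_num at hz
  exact h2 _ h1

/-- A cube root with constant coefficient `1` is unique in `ℤ⟦X⟧`. -/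
theorem eq_of_cube_eq {a b : PowerSeries ℤ} (h : a ^ 3 = b ^ 3)
    (ha : PowerSeries.constantCoeff a = 1) (hb : PowerSeries.constantCoeff b = 1) : a = b := by
  have key : (a - b) * (a ^ 2 + a * b + b ^ 2) = 0 := by linear_combination h
  rcases mul_eq_zero.mp key with h1 | h1
  · exact sub_eq_zero.mp h1
  · exfalso
    have h3 := congrArg (PowerSeries.constantCoeff (R := ℤ)) h1
    simp [ha, hb] at h3

/-- **`u₄ = (η(τ)/η(4τ))⁸`**, numerator form. -/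
theorem u4Num_eq : u4Num = etaProd ^ 8 * ex 4 etaInv ^ 8 :=
  eq_of_cube_eq (u4Num_cube.trans etaU4Num_cube.symm) constantCoeff_u4Num constantCoeff_etaU4Num

/-- **`u₄ + 16 = η(2τ)²⁴ / (η(τ)⁸ η(4τ)¹⁶)`**, numerator form. -/
theorem u4Num_add_eq :
    u4Num + 16 * X = ex 2 etaProd ^ 24 * (etaInv ^ 8 * ex 4 etaInv ^ 16) := by
  -- `t2Num * (u4Num + 16 X) = u4Num ^ 2` and `t2Num` is a unit
  have h1 := t2Num_mul_u4Num
  have hU : UZ = etaProd ^ 24 := rfl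
  have h2 : ex 2 UZ * ex 2 VZ = 1 := ex_UZ_mul_ex_VZ 2
  have h3 : etaProd ^ 24 * etaInv ^ 24 = 1 := by
    rw [← mul_pow, etaProd_mul_etaInv, one_pow]
  have h4 : t2Num * (VZ * ex 2 UZ) = 1 := by
    rw [t2Num]
    calc UZ * ex 2 VZ * (VZ * ex 2 UZ) = (UZ * VZ) * (ex 2 UZ * ex 2 VZ) := by ring
      _ = 1 := by rw [UZ_mul_VZ, h2, mul_one]
  have h5 : ex 2 UZ = ex 2 etaProd ^ 24 := by rw [hU, map_pow]
  calc u4Num + 16 * X = (t2Num * (VZ * ex 2 UZ)) * (u4Num + 16 * X) := by rw [h4, one_mul]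
    _ = (VZ * ex 2 UZ) * (t2Num * (u4Num + 16 * X)) := by ring
    _ = (VZ * ex 2 UZ) * u4Num ^ 2 := by rw [h1]
    _ = (etaInv ^ 24 * ex 2 etaProd ^ 24) * (etaProd ^ 8 * ex 4 etaInv ^ 8) ^ 2 := by
        rw [← etaInv_pow, h5, ← u4Num_eq]
    _ = ex 2 etaProd ^ 24 * (etaInv ^ 8 * ex 4 etaInv ^ 16) * (etaProd ^ 16 * etaInv ^ 16) := by
        ring
    _ = ex 2 etaProd ^ 24 * (etaInv ^ 8 * ex 4 etaInv ^ 16) := by
        rw [← mul_pow, etaProd_mul_etaInv, one_pow, mul_one]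

section Laurent

variable (K : Type*) [CommRing K]

/-- **`u₄ = (η(τ)/η(4τ))⁸`** over every commutative ring. -/
theorem u4_eq : u4 K = xinv K * em K (etaProd ^ 8 * ex 4 etaInv ^ 8) := by
  rw [u4, u4Num_eq]

/-- **`u₄ + 16 = η(2τ)²⁴ / (η(τ)⁸ η(4τ)¹⁶)`** over every commutative ring. -/
theorem u4_add_eq :
    u4 K + 16 = xinv K * em K (ex 2 etaProd ^ 24 * (etaInv ^ 8 * ex 4 etaInv ^ 16)) := by
  rw [← u4Num_add_eq, map_add, map_mul, em_ofNat, mul_add, ← u4,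
    mul_left_comm, xinv_mul_em_X, mul_one]

end Laurent

end Fermat.Agent.S36.Haupt4
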