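import Mathlib
import Fermat.Agent.S36.Haupt4.Fibre
import Fermat.Agent.S30.Model.RegUnif
import Fermat.Agent.S36.ResFinite
import Fermat.Agent.S34.TwoPrimesGauss

/-!
# S36 / Haupt4 / FibreGen — explicit uniformisers and finite residue fields on the `u₄`-chart

Complement of `S36/Haupt4/Fibre.lean` (the two extra exits asked by the C1 owner for
`ThickChart.thick_at_crossing`: `hgen` and `hfin`), at level `M`, `4 ∣ M`, coordinate
`u₄ = Haupt4.u4E M E h4`, chart ring `R = integralClosure (O[u₄]) (LE M E)`: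

* `genAt_u4` : at a maximal ideal `Q ∋ π` of `R` containing `z`, `z = u₄ - c` in `LE M E`, with
  `c` and `c + 16` units of `O` (a NON-cuspidal rational point of the special fibre):
  `RegUnif.GenAt (piC u₄ π) z Q`, i.e. `z ∈ Q ∧ ∀ m ∈ Q, ∃ s ∉ Q, s * m ∈ (π, z)`;
* `genAt_u4_polyChart` : the same for `z := TwoPrimesGauss.polyChart u₄ (X - C c)`;
* `exists_pow_sub_mem_u4` : `∃ f ≠ 0, ∀ r : R, r ^ (ℓ ^ f) - r ∈ Q` (finite residue field of
  `O`, residue characteristic `ℓ`);
* `genAt_u4_OE`, `genAt_u4_polyChart_OE`, `exists_pow_sub_mem_u4_OE`, `finite_quotient_u4_OE` :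
  the same over `O = OE A E` (hypotheses of `Fibre.chartFacts_u4_OE`).
-/

set_option autoImplicit false
set_option synthInstance.maxHeartbeats 400000
set_option linter.style.haveILetI false
set_option linter.unusedSectionVars false

noncomputable section

open Polynomial IntermediateField ModularCurve

namespace Fermat.Agent.S36.Haupt4.FibreGen

open Fermat.Agent.S18.K1Defs Fermat.Agent.S18.K1Main Fermat.Agent.S30 Fermat.Agent.S30.Model
  Fermat.Agent.S34.ModelNormal Fermat.Agent.S34.HauptU.LevelMAux Fermat.Agent.S36.Haupt4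
  Fermat.Agent.S36.Haupt4.Fibre

local notation "Qb" => AlgebraicClosure ℚ

/-! ### Generic in the discrete valuation ring -/

section Generic

variable (M : ℕ) [NeZero M] (E : IntermediateField ℚ Qb)
  {O : Type} [CommRing O] [IsDomain O] [IsDiscreteValuationRing O]
  [Algebra O E] [IsFractionRing O E]

/-- **Explicit uniformiser at a non-cuspidal rational point of the `u₄`-chart**: `u₄ - c`
generates, together with `π`, every maximal ideal `Q ∋ π, u₄ - c` locally, when `c` and `c + 16`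
are units. -/
theorem genAt_u4 (h4 : 4 ∣ M) (h2 : IsUnit (2 : O)) (hFG : FinGaussC M O E)
    (π : O) (hπ : Irreducible π) :
    letI := algebraOL O E (LE M E)
    ∀ Q : Ideal (integralClosure (Algebra.adjoin O {u4E M E h4}) (LE M E)), Q.IsMaximal →
      piC (u4E M E h4) π ∈ Q → ∀ c : O, IsUnit c → IsUnit (c + 16) →
      ∀ z : integralClosure (Algebra.adjoin O {u4E M E h4}) (LE M E),
        (z : LE M E) = u4E M E h4 - algebraMap O (LE M E) c → z ∈ Q →
        RegUnif.GenAt (piC (u4E M E h4) π) z Q := by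
  classical
  letI := algebraOL O E (LE M E)
  haveI := isScalarTower_OL O E (LE M E)
  obtain ⟨hT, hFD, hG, -, hH⟩ := modelInputs_u4 M E h4 h2 hFG π hπ
  haveI := hFD
  intro Q hQ hπQ c hc hc16 z hz hzQ
  refine RegUnif.gen_zero_sub π hπ _ hT hG _ hH Q hQ hπQ c ?_ z hz hzQ
  intro c' hc'
  rw [Finset.mem_insert, Finset.mem_singleton] at hc'
  rcases hc' with rfl | rfl
  · rwa [sub_zero]
  · rwa [sub_neg_eq_add]

/-- `genAt_u4` for the element `polyChart u₄ (X - C c)` of the chart ring. -/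
theorem genAt_u4_polyChart (h4 : 4 ∣ M) (h2 : IsUnit (2 : O)) (hFG : FinGaussC M O E)
    (π : O) (hπ : Irreducible π) :
    letI := algebraOL O E (LE M E)
    ∀ Q : Ideal (integralClosure (Algebra.adjoin O {u4E M E h4}) (LE M E)), Q.IsMaximal →
      piC (u4E M E h4) π ∈ Q → ∀ c : O, IsUnit c → IsUnit (c + 16) →
      Fermat.Agent.S34.TwoPrimesGauss.polyChart (u4E M E h4) (X - C c) ∈ Q →
      RegUnif.GenAt (piC (u4E M E h4) π)
        (Fermat.Agent.S34.TwoPrimesGauss.polyChart (u4E M E h4) (X - C c)) Q := by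
  letI := algebraOL O E (LE M E)
  intro Q hQ hπQ c hc hc16 hzQ
  refine genAt_u4 M E h4 h2 hFG π hπ Q hQ hπQ c hc hc16 _ ?_ hzQ
  rw [Fermat.Agent.S34.TwoPrimesGauss.coe_polyChart, map_sub, aeval_X, aeval_C]

/-- **Finite residue fields on the `u₄`-chart** (`hfin` of `ThickChart`). -/
theorem exists_pow_sub_mem_u4 [Finite (IsLocalRing.ResidueField O)] (h4 : 4 ∣ M)
    (h2 : IsUnit (2 : O)) (hFG : FinGaussC M O E) (π : O) (hπ : Irreducible π)
    (ℓ : ℕ) [Fact ℓ.Prime] (hℓ : ((ℓ : ℕ) : O) ∈ IsLocalRing.maximalIdeal O) :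
    letI := algebraOL O E (LE M E)
    ∀ Q : Ideal (integralClosure (Algebra.adjoin O {u4E M E h4}) (LE M E)), Q.IsMaximal →
      piC (u4E M E h4) π ∈ Q →
      ∃ f : ℕ, f ≠ 0 ∧
        ∀ r : integralClosure (Algebra.adjoin O {u4E M E h4}) (LE M E), r ^ (ℓ ^ f) - r ∈ Q := by
  classical
  letI := algebraOL O E (LE M E)
  haveI := isScalarTower_OL O E (LE M E)
  obtain ⟨hT, hFD, -, -, -⟩ := modelInputs_u4 M E h4 h2 hFG π hπ
  haveI := hFD
  intro Q hQ hπQ
  exact ResFinite.exists_pow_sub_mem π hπ ℓ hℓ _ hT Q hQ hπQ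

end Generic

/-! ### The arithmetic instance `O = A ∩ E` -/

section Arithmetic

variable (A : ValuationSubring Qb) (M : ℕ) [NeZero M] (h4 : 4 ∣ M) {ℓ : ℕ} [Fact ℓ.Prime]
  (hℓM : ¬ ℓ ∣ M) (hA : A.LiesOverPrime ℓ) (hℓ : ℓ ≠ 2)
  (E : IntermediateField ℚ Qb) [FiniteDimensional ℚ E] [IsDiscreteValuationRing (OE A E)]
  (z : Qb) (hz : IsPrimitiveRoot z M) (hzE : z ∈ E) (π : OE A E) (hπ : Irreducible π)

include hℓM hA hℓ hz hzE hπ in
/-- `genAt_u4` over `O_E = A ∩ E` (hypotheses of `Fibre.chartFacts_u4_OE`). -/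
theorem genAt_u4_OE :
    letI := algebraOL (OE A E) E (LE M E)
    ∀ Q : Ideal (integralClosure (Algebra.adjoin (OE A E) {u4E M E h4}) (LE M E)), Q.IsMaximal →
      piC (u4E M E h4) π ∈ Q → ∀ c : OE A E, IsUnit c → IsUnit (c + 16) →
      ∀ w : integralClosure (Algebra.adjoin (OE A E) {u4E M E h4}) (LE M E),
        (w : LE M E) = u4E M E h4 - algebraMap (OE A E) (LE M E) c → w ∈ Q →
        RegUnif.GenAt (piC (u4E M E h4) π) w Q :=
  genAt_u4 M E h4 (isUnit_two_OE A hA hℓ E) (finGaussC_OE A M hℓM hA E z hz hzE) π hπ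

include hℓM hA hℓ hz hzE hπ in
/-- `genAt_u4_polyChart` over `O_E = A ∩ E`. -/
theorem genAt_u4_polyChart_OE :
    letI := algebraOL (OE A E) E (LE M E)
    ∀ Q : Ideal (integralClosure (Algebra.adjoin (OE A E) {u4E M E h4}) (LE M E)), Q.IsMaximal →
      piC (u4E M E h4) π ∈ Q → ∀ c : OE A E, IsUnit c → IsUnit (c + 16) →
      Fermat.Agent.S34.TwoPrimesGauss.polyChart (u4E M E h4) (X - C c) ∈ Q →
      RegUnif.GenAt (piC (u4E M E h4) π)
        (Fermat.Agent.S34.TwoPrimesGauss.polyChart (u4E M E h4) (X - C c)) Q :=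
  genAt_u4_polyChart M E h4 (isUnit_two_OE A hA hℓ E) (finGaussC_OE A M hℓM hA E z hz hzE) π hπ

include hA in
omit [NeZero M] [IsDiscreteValuationRing (OE A E)] in
/-- `ℓ` lies in the maximal ideal of `O_E`. -/
theorem natCast_mem_maximalIdeal_OE :
    ((ℓ : ℕ) : OE A E) ∈ IsLocalRing.maximalIdeal (OE A E) := by
  have h := GaussDescent.natCast_mem_nonunits_OE A E hA
  rw [ValuationSubring.mem_nonunits_iff_exists_mem_maximalIdeal] at h
  obtain ⟨ha, hm⟩ := h
  convert hm using 1
  exact Subtype.ext (by simp)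

include hℓM hA hℓ hz hzE hπ in
/-- **`hfin` over `O_E`**: every closed point of the special fibre of the `u₄`-chart has a
finite residue field, fixed by a power of the `ℓ`-Frobenius. -/
theorem exists_pow_sub_mem_u4_OE :
    letI := algebraOL (OE A E) E (LE M E)
    ∀ Q : Ideal (integralClosure (Algebra.adjoin (OE A E) {u4E M E h4}) (LE M E)), Q.IsMaximal →
      piC (u4E M E h4) π ∈ Q →
      ∃ f : ℕ, f ≠ 0 ∧
        ∀ r : integralClosure (Algebra.adjoin (OE A E) {u4E M E h4}) (LE M E),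
          r ^ (ℓ ^ f) - r ∈ Q := by
  haveI : Finite (IsLocalRing.ResidueField (OE A E)) := ResFinite.finite_residueField_OE A hA E
  exact exists_pow_sub_mem_u4 M E h4 (isUnit_two_OE A hA hℓ E)
    (finGaussC_OE A M hℓM hA E z hz hzE) π hπ ℓ (natCast_mem_maximalIdeal_OE A hA E)

include hℓM hA hℓ hz hzE hπ in
/-- The residue field of the `u₄`-chart ring at a closed point of the special fibre is finite. -/
theorem finite_quotient_u4_OE :
    letI := algebraOL (OE A E) E (LE M E)
    ∀ Q : Ideal (integralClosure (Algebra.adjoin (OE A E) {u4E M E h4}) (LE M E)), Q.IsMaximal →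
      piC (u4E M E h4) π ∈ Q →
      Finite (integralClosure (Algebra.adjoin (OE A E) {u4E M E h4}) (LE M E) ⧸ Q) := by
  classical
  letI := algebraOL (OE A E) E (LE M E)
  haveI := isScalarTower_OL (OE A E) E (LE M E)
  haveI : Finite (IsLocalRing.ResidueField (OE A E)) := ResFinite.finite_residueField_OE A hA E
  obtain ⟨hT, hFD, -, -, -⟩ := modelInputs_u4 M E h4 (isUnit_two_OE A hA hℓ E)
    (finGaussC_OE A M hℓM hA E z hz hzE) π hπ
  haveI := hFD
  intro Q hQ hπQ
  exact ResFinite.finite_quotient π hπ _ hT Q hQ hπQ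

end Arithmetic

end Fermat.Agent.S36.Haupt4.FibreGen
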